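import Fermat.Agent.RibetE.Fix
import Fermat.Agent.Star.WidthInst

/-!
# The widths are prime to everything when there are no elliptic points
-/

set_option autoImplicit false
set_option linter.unusedSectionVars false

noncomputable section

open ModularCurve AlgebraicCurve
open Fermat.Agent.FF Fermat.Agent.RR Fermat.Agent.TwoGauss

namespace Fermat.Agent.RibetE

/-- the algebraic numbers -/
local notation "𝕂" => AlgebraicClosure ℚ

section

variable {A : ValuationSubring (AlgebraicClosure ℚ)} {q m : ℕ} [NeZero m]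
  [Fact q.Prime] [CharP (IsLocalRing.ResidueField A) q]
  (hq : q.Prime) (hm : ¬ q ∣ m) (hA : A.LiesOverPrime q)

theorem copWidths_of_nu (h : nuTwo m = 0 ∧ nuThree m = 0)
    (h' : nuTwo (m * q) = 0 ∧ nuThree (m * q) = 0) (n : ℕ) :
    CopWidths (m := m) hq hm hA n := by
  intro H3 _ hM P C hP
  haveI : IsFF 𝕂 (modularFunctionFieldBar (m * q)) := isFF_m
  rw [Star.Inst.width_eq_one_of_nu hq hm hA H3 h h' C hP]
  exact Nat.coprime_one_right n

/-- **All widths are one** when a prime `r ≡ 11 (mod 12)` divides `m`. -/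
theorem copWidths_of_eleven {r : ℕ} (hr : r.Prime) (hrm : r ∣ m) (hr12 : r % 12 = 11) (n : ℕ) :
    CopWidths (m := m) hq hm hA n :=
  copWidths_of_nu hq hm hA (Star.Inst.nu_eq_zero_of_eleven hr hrm hr12)
    (Star.Inst.nu_eq_zero_of_eleven hr (hrm.mul_right q) hr12) n

/-- **All widths are one** when `4 ∣ m` or `9 ∣ m`. -/
theorem copWidths_of_four_nine (h49 : 4 ∣ m ∨ 9 ∣ m) (n : ℕ) :
    CopWidths (m := m) hq hm hA n :=
  copWidths_of_nu hq hm hA (TriDim.nu_eq_zero h49)
    (TriDim.nu_eq_zero (h49.imp (fun h => h.mul_right q) (fun h => h.mul_right q))) n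

end

end Fermat.Agent.RibetE
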