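import Fermat.Agent.RibetE.Mono
import Fermat.Agent.Ribet.GalN
import Fermat.Agent.RibetE.CopW
import Fermat.Agent.TriLow.Wiring

/-!
# The condition (E): monodromy on the non-Eisenstein `q`-new part
-/

set_option autoImplicit false
set_option linter.unusedSectionVars false
set_option linter.style.haveILetI false

noncomputable section

open ModularCurve HahnSeries Module AlgebraicCurve
open Fermat.Agent.GaussVal Fermat.Agent.FF Fermat.Agent.RR Fermat.Agent.TwoGauss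
open Fermat.Agent.TEll Fermat.Agent.Star Fermat.Agent.GalRep
open scoped Fermat.Agent.GaussVal
open Fermat.Agent.TSide (etaOp unrTors etaOp_apply)
open Fermat.Agent.Ribet (JTor mem_JTor galJ coe_galJ EJ)
open Fermat.Agent.RTD (IsTameGen)

namespace Fermat.Agent.RibetE

/-- the algebraic numbers -/
local notation "𝕂" => AlgebraicClosure ℚ

section Tame

variable {A : ValuationSubring (AlgebraicClosure ℚ)} {q m : ℕ} [NeZero m]
  (hq : q.Prime) (hm : ¬ q ∣ m) (hA : A.LiesOverPrime q)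

include hq hm hA in
theorem inertia_pow_smul {n : ℕ} (hn : ¬ q ∣ n) {τ : GQ} (hτ : τ ∈ A.inertiaSubgroupIn ℚ)
    {x : JZero (m * q)} (hx : n • x = 0) (j : ℕ) : τ ^ j • x = x + j • (τ • x - x) := by
  haveI : NeZero (m * q) := ⟨Nat.mul_ne_zero (NeZero.ne m) hq.ne_zero⟩
  have hu := TwoGauss.inertia_unipotent hq hm hA hn hτ hτ hx
  induction j with
  | zero => rw [pow_zero, one_smul, zero_nsmul, add_zero]
  | succ j ih =>
    have e1 : τ • (j • (τ • x - x)) = j • (τ • x - x) := by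
      have h1 : τ • (j • (τ • x - x)) = j • (τ • (τ • x - x)) :=
        map_nsmul (galE (m * q) τ) j _
      rw [h1, hu]
    have e2 : τ • (x + j • (τ • x - x)) = τ • x + τ • (j • (τ • x - x)) :=
      map_add (galE (m * q) τ) _ _
    rw [pow_succ', mul_smul, ih, e2, e1, succ_nsmul']
    abel

include hq hm hA in
/-- Classes of `p`-power order fixed by a tame generator are fixed by the whole inertia group. -/
theorem fixed_of_tameGen {p : ℕ} (hp : p.Prime) (hqp : q ≠ p) {σ₀ : GQ}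
    (hσ₀ : IsTameGen A p q σ₀) (k : ℕ) {x : JZero (m * q)} (hx : p ^ k • x = 0)
    (hσx : σ₀ • x = x) {τ : GQ} (hτ : τ ∈ A.inertiaSubgroupIn ℚ) : τ • x = x := by
  haveI : Fact p.Prime := ⟨hp⟩
  haveI : NeZero (m * q) := ⟨Nat.mul_ne_zero (NeZero.ne m) hq.ne_zero⟩
  haveI : NeZero (p ^ k) := ⟨pow_ne_zero k hp.ne_zero⟩
  have hqk : ¬ q ∣ p ^ k := fun h =>
    hqp ((Nat.prime_dvd_prime_iff_eq hq hp).mp (hq.dvd_of_dvd_pow h))
  set f : A.inertiaSubgroupIn ℚ →* (AddMonoid.End (JTor (m * q) (p ^ k)))ˣ :=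
    (galJ (N := m * q) (n := p ^ k)).toHomUnits.comp (A.inertiaSubgroupIn ℚ).subtype with hf
  have hfa : ∀ (i : A.inertiaSubgroupIn ℚ) (y : JTor (m * q) (p ^ k)),
      (((f i : AddMonoid.End (JTor (m * q) (p ^ k))) y : JTor (m * q) (p ^ k)) : JZero (m * q)) =
        (i : GQ) • (y : JZero (m * q)) := fun i y => rfl
  have hext : ∀ i : A.inertiaSubgroupIn ℚ, (∀ y : JZero (m * q), p ^ k • y = 0 → (i : GQ) • y = y) →
      f i = 1 := by
    intro i hi
    refine Units.ext (AddMonoidHom.ext fun y => Subtype.ext ?_)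
    exact (hfa i y).trans (hi _ y.2)
  have hP : IsPGroup p f.range := by
    rintro ⟨_, ⟨i, rfl⟩⟩
    refine ⟨k, Subtype.ext ?_⟩
    show f i ^ p ^ k = 1
    rw [← map_pow]
    refine hext _ fun y hy => ?_
    rw [Subgroup.coe_pow, inertia_pow_smul hq hm hA hqk i.2 hy (p ^ k)]
    have h1 : p ^ k • ((i : GQ) • y - y) = 0 := by
      have h2 : p ^ k • ((i : GQ) • y) = (i : GQ) • (p ^ k • y) :=
        (map_nsmul (galE (m * q) (i : GQ)) _ _).symm
      have h3 : (i : GQ) • (0 : JZero (m * q)) = 0 := map_zero (galE (m * q) (i : GQ))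
      rw [nsmul_sub, h2, hy, h3, sub_zero]
    rw [h1, add_zero]
  obtain ⟨L, hL, hL2⟩ := Cofaith.exists_level (m * q) (n := p ^ k) (NeZero.ne _)
  have h1 := hσ₀.mem_zpowers hq hA hqp f hP L (fun i hi => hext i (hL2 i hi)) ⟨τ, hτ⟩
  obtain ⟨j, hj⟩ := Subgroup.mem_zpowers_iff.mp h1
  have h2 : ∀ y : JTor (m * q) (p ^ k), σ₀ • (y : JZero (m * q)) = y →
      (((f ⟨σ₀, hσ₀.1⟩ ^ j : (AddMonoid.End (JTor (m * q) (p ^ k)))ˣ) :
        AddMonoid.End (JTor (m * q) (p ^ k))) y) = y := by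
    intro y hy
    rw [← map_zpow]
    refine Subtype.ext ?_
    rw [hfa]
    have h3 : σ₀ ∈ MulAction.stabilizer GQ (y : JZero (m * q)) := hy
    exact (MulAction.stabilizer GQ (y : JZero (m * q))).zpow_mem h3 j
  have h3 := h2 ⟨x, hx⟩ hσx
  rw [hj] at h3
  exact congrArg Subtype.val h3

end Tame

section Per

variable {N : ℕ} [NeZero N]

/-- the action of `HeckeAlgS` is an action -/
theorem inclS_mul_smul {S : Set ℕ} (s r : HeckeAlgS S) (x : JZero N) :
    (letI := heckeModuleBar N; inclS S (s * r) • x) =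
      (letI := heckeModuleBar N; inclS S s • (inclS S r • x)) := by
  letI := heckeModuleBar N
  show inclS S (s * r) • x = inclS S s • (inclS S r • x)
  rw [map_mul, mul_smul]

/-- **Periodicity**: if `(1 - s ^ M) ^ j` kills `x` then `x` is `s`-periodic. -/
theorem mem_perU_of_kill {S : Set ℕ} (s : HeckeAlgS S) {M : ℕ} (hM : 0 < M) (j : ℕ) {n : ℕ}
    (hn : n ≠ 0) {x : JZero N} (hx : n • x = 0)
    (h : letI := heckeModuleBar N; inclS S ((1 - s ^ M) ^ j) • x = 0) :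
    x ∈ perU (actE N (inclS S s)) := by
  letI := heckeModuleBar N
  have h' : inclS S ((1 - s ^ M) ^ j) • x = 0 := h
  have hz : ∀ r : HeckeAlg, r • (0 : JZero N) = 0 := fun r => smul_zero r
  set u := actE N (inclS S s) with hu
  let G : AddSubgroup (JZero N) := (nsmulAddMonoidHom n : JZero N →+ JZero N).ker
  have hG : ∀ y, y ∈ G ↔ n • y = 0 := fun y => Iff.rfl
  have hfin : Finite G := Cofaith.finite_torsion N hn
  obtain ⟨K, hK, hid⟩ := exists_idem u G (fun y hy => by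
    rw [hG] at hy ⊢
    rw [← map_nsmul, hy, map_zero])
  have hpow : ∀ (K : ℕ) (y : JZero N), (u ^ K) y = inclS S (s ^ K) • y := by
    intro K y
    rw [hu, ← actE_pow, ← map_pow]
    rfl
  refine ⟨K, hK, ?_⟩
  have h1 : inclS S (s ^ K) • (x - (u ^ K) x) = 0 := by
    rw [← hpow, map_sub, hid x ((hG x).mpr hx), sub_self]
  have h2 : inclS S ((1 - s ^ M) ^ j) • (x - (u ^ K) x) = 0 := by
    rw [smul_sub, h', hpow, ← mul_smul, ← map_mul, mul_comm, map_mul, mul_smul, h', hz,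
      sub_zero]
  have hcop : IsCoprime ((1 - s ^ M) ^ j) (s ^ K) := by
    refine IsCoprime.pow ?_
    refine ⟨1, s ^ (M - 1), ?_⟩
    rw [← pow_succ, Nat.sub_add_cancel hM]
    ring
  obtain ⟨a, b, hab⟩ := hcop
  have h3 : inclS S 1 • (x - (u ^ K) x) = 0 := by
    rw [← hab, map_add, add_smul, map_mul, map_mul, mul_smul, mul_smul, h1, h2, hz,
      hz, add_zero]
  rw [map_one, one_smul] at h3
  exact (sub_eq_zero.mp h3).symm

end Per

section Main

variable {A : ValuationSubring (AlgebraicClosure ℚ)} {q m : ℕ} [NeZero m]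

theorem eval_eisS {S : Set ℕ} {k' : Type} [Field k'] (θ : Fermat.Agent.TwExact.PIdx S → k')
    (ℓ : {ℓ : Nat.Primes // (ℓ : ℕ) ∉ S}) :
    MvPolynomial.eval₂ (Int.castRingHom k') θ (eisS S ℓ) = θ ℓ - (((ℓ.1 : ℕ) : k') + 1) := by
  have h1 : MvPolynomial.eval₂ (Int.castRingHom k') θ (eisS S ℓ) =
      MvPolynomial.eval₂Hom (Int.castRingHom k') θ (eisS S ℓ) := rfl
  rw [h1, eisS, map_sub, map_intCast, MvPolynomial.coe_eval₂Hom, MvPolynomial.eval₂_X]
  push_cast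
  rfl

/-- **(JE)**: the condition (E) at the `p`-power torsion of `J₀(m q)`, for a tame generator at
`q` and a non-Eisenstein maximal ideal not occurring at level `m`. -/
theorem EJ_of_new (hq : q.Prime) (hm : ¬ q ∣ m) (hA : A.LiesOverPrime q) [NeZero (m * q)]
    {p : ℕ} (hp : p.Prime) (hqp : q ≠ p)
    (hw : Nat.Coprime p 12 ∨ 4 ∣ m ∨ 9 ∣ m ∨ ∃ r, r.Prime ∧ r ∣ m ∧ r % 12 = 11)
    {S : Set ℕ} (hS : ∀ ℓ : ℕ, ℓ.Prime → ℓ ∣ m * q → ℓ ∈ S)
    {k' : Type} [Field k'] [Finite k'] (θ : Fermat.Agent.TwExact.PIdx S → k')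
    {t : HeckeAlgS S}
    (ht : letI := heckeModuleBar m; ∀ (k : ℕ) (z : JZero m), p ^ k • z = 0 → inclS S t • z = 0)
    (htθ : MvPolynomial.eval₂ (Int.castRingHom k') θ t ≠ 0)
    {ℓ : {ℓ : Nat.Primes // (ℓ : ℕ) ∉ S}} (hℓ : θ ℓ ≠ ((ℓ.1 : ℕ) : k') + 1)
    {σ₀ : GQ} (hσ₀ : IsTameGen A p q σ₀) (k : ℕ) : EJ (m * q) (p ^ k) S θ σ₀ := by
  classical
  haveI : Fact q.Prime := ⟨hq⟩
  haveI : CharP (IsLocalRing.ResidueField A) q := TEll.charP_residueField A q hA
  haveI : IsFF (IsLocalRing.ResidueField A)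
    (modularFunctionFieldFullC (IsLocalRing.ResidueField A) m) :=
    isFF_m' (m := m) (GoodRed.degThm_res hq hA (NeZero.ne m) hm)
  haveI : Fintype k' := Fintype.ofFinite k'
  have hcop : ∀ k, CopWidths (m := m) hq hm hA (p ^ k) := by
    intro k
    rcases hw with h | h | h | ⟨r, hr, hrm, hr12⟩
    · exact copWidths_of_coprime hq hm hA (h.pow_left k)
    · exact copWidths_of_four_nine hq hm hA (Or.inl h) _
    · exact copWidths_of_four_nine hq hm hA (Or.inr h) _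
    · exact copWidths_of_eleven hq hm hA hr hrm hr12 _
  intro x hx hnil hσx
  set s : HeckeAlgS S := t * eisS S ℓ with hs
  have hs0 : MvPolynomial.eval₂ (Int.castRingHom k') θ s ≠ 0 := by
    have h1 : MvPolynomial.eval₂ (Int.castRingHom k') θ s =
        MvPolynomial.eval₂ (Int.castRingHom k') θ t *
          MvPolynomial.eval₂ (Int.castRingHom k') θ (eisS S ℓ) := MvPolynomial.eval₂_mul _ _
    rw [h1, eval_eisS]
    exact mul_ne_zero htθ (sub_ne_zero.mpr hℓ)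
  have hM : 0 < Fintype.card k' - 1 := Nat.sub_pos_of_lt Fintype.one_lt_card
  obtain ⟨j, hj⟩ := hnil (1 - s ^ (Fintype.card k' - 1)) (by
    have h1 : MvPolynomial.eval₂ (Int.castRingHom k') θ (1 - s ^ (Fintype.card k' - 1)) =
      1 - MvPolynomial.eval₂ (Int.castRingHom k') θ s ^ (Fintype.card k' - 1) := by
      show MvPolynomial.eval₂Hom (Int.castRingHom k') θ _ = _
      rw [map_sub, map_one, map_pow]
      rfl
    rw [h1, FiniteField.pow_card_sub_one_eq_one _ hs0, sub_self])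
  have hpk : p ^ k ≠ 0 := pow_ne_zero k hp.ne_zero
  have hper : x ∈ perU (actE (m * q) (inclS S (t * eisS S ℓ))) :=
    mem_perU_of_kill s hM j hpk hx hj
  exact exists_galois_sub hq hm hA hp (Ne.symm hqp) hcop S hS t ht ℓ hσ₀.1
    (fun k x hx h τ hτ => fixed_of_tameGen hq hm hA hp hqp hσ₀ k hx h hτ) k hx hper hσx

/-- **(JE)**, with `t` killing the cusp forms of level `m`. -/
theorem EJ_of_new' (hq : q.Prime) (hm : ¬ q ∣ m) (hA : A.LiesOverPrime q) [NeZero (m * q)]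
    {p : ℕ} (hp : p.Prime) (hqp : q ≠ p)
    (hw : Nat.Coprime p 12 ∨ 4 ∣ m ∨ 9 ∣ m ∨ ∃ r, r.Prime ∧ r ∣ m ∧ r % 12 = 11)
    {S : Set ℕ} (hS : ∀ ℓ : ℕ, ℓ.Prime → ℓ ∣ m * q → ℓ ∈ S)
    {k' : Type} [Field k'] [Finite k'] (θ : Fermat.Agent.TwExact.PIdx S → k')
    {t : HeckeAlgS S} (ht : evS m S t = 0)
    (htθ : MvPolynomial.eval₂ (Int.castRingHom k') θ t ≠ 0)
    {ℓ : {ℓ : Nat.Primes // (ℓ : ℕ) ∉ S}} (hℓ : θ ℓ ≠ ((ℓ.1 : ℕ) : k') + 1)
    {σ₀ : GQ} (hσ₀ : IsTameGen A p q σ₀) (k : ℕ) : EJ (m * q) (p ^ k) S θ σ₀ :=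
  EJ_of_new hq hm hA hp hqp hw hS θ (fun k _ hz =>
    TriLow.actS_eq_zero m S (fun ℓ h1 h2 => hS ℓ h1 (h2.mul_right q)) t ht
      (pow_ne_zero k hp.ne_zero) hz) htθ hℓ hσ₀ k

end Main

end Fermat.Agent.RibetE
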