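import Mathlib

/-!
# Counting for the monodromy

Abstract counting on a `p`-divisible group with a commuting endomorphism `u`.
-/

set_option autoImplicit false

noncomputable section

namespace Fermat.Agent.RibetE

variable {J : Type*} [AddCommGroup J]

/-- the elements periodic under `u` -/
def perU (u : Module.End ℤ J) : AddSubgroup J where
  carrier := {x | ∃ N : ℕ, 0 < N ∧ (u ^ N) x = x}
  zero_mem' := ⟨1, one_pos, map_zero _⟩
  add_mem' := by
    rintro x y ⟨a, ha, hx⟩ ⟨b, hb, hy⟩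
    have key : ∀ (c d : ℕ) (z : J), (u ^ c) z = z → (u ^ (c * d)) z = z := by
      intro c d z hz
      induction d with
      | zero => rw [mul_zero, pow_zero, Module.End.one_apply]
      | succ d ih => rw [mul_add, mul_one, pow_add, Module.End.mul_apply, hz, ih]
    refine ⟨a * b, Nat.mul_pos ha hb, ?_⟩
    rw [map_add, key a b x hx, mul_comm, key b a y hy]
  neg_mem' := by
    rintro x ⟨a, ha, hx⟩
    exact ⟨a, ha, by rw [map_neg, hx]⟩

/-- the elements killed by a power of `u` -/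
def nilU (u : Module.End ℤ J) : AddSubgroup J where
  carrier := {x | ∃ N : ℕ, (u ^ N) x = 0}
  zero_mem' := ⟨0, map_zero _⟩
  add_mem' := by
    rintro x y ⟨a, hx⟩ ⟨b, hy⟩
    refine ⟨a + b, ?_⟩
    rw [map_add, pow_add, Module.End.mul_apply, Module.End.mul_apply, hy, map_zero, add_zero,
      ← Module.End.mul_apply, ← pow_add, add_comm, pow_add, Module.End.mul_apply, hx, map_zero]
  neg_mem' := by
    rintro x ⟨a, hx⟩
    exact ⟨a, by rw [map_neg, hx, neg_zero]⟩

theorem mem_perU {u : Module.End ℤ J} {x : J} : x ∈ perU u ↔ ∃ N : ℕ, 0 < N ∧ (u ^ N) x = x :=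
  Iff.rfl

theorem mem_nilU {u : Module.End ℤ J} {x : J} : x ∈ nilU u ↔ ∃ N : ℕ, (u ^ N) x = 0 := Iff.rfl

theorem pow_apply_of_periodic {u : Module.End ℤ J} {c : ℕ} {z : J} (hz : (u ^ c) z = z) (d : ℕ) :
    (u ^ (c * d)) z = z := by
  induction d with
  | zero => rw [mul_zero, pow_zero, Module.End.one_apply]
  | succ d ih => rw [mul_add, mul_one, pow_add, Module.End.mul_apply, hz, ih]

theorem eq_zero_of_per_nil {u : Module.End ℤ J} {x : J} (h1 : x ∈ perU u) (h2 : x ∈ nilU u) :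
    x = 0 := by
  obtain ⟨N, hN, hx⟩ := h1
  obtain ⟨M, hM⟩ := h2
  have h3 := pow_apply_of_periodic hx M
  have h4 : M ≤ N * M := Nat.le_mul_of_pos_left M hN
  rw [← Nat.sub_add_cancel h4, pow_add, Module.End.mul_apply, hM, map_zero] at h3
  exact h3.symm

/-- An idempotent power on a finite stable subgroup. -/
theorem exists_idem (u : Module.End ℤ J) (G : AddSubgroup J) [Finite G]
    (hG : ∀ x ∈ G, u x ∈ G) : ∃ N : ℕ, 0 < N ∧ ∀ x ∈ G, (u ^ N) ((u ^ N) x) = (u ^ N) x := by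
  have hpow : ∀ (N : ℕ), ∀ x ∈ G, (u ^ N) x ∈ G := by
    intro N
    induction N with
    | zero => intro x hx; rwa [pow_zero, Module.End.one_apply]
    | succ N ih => intro x hx; rw [pow_succ, Module.End.mul_apply]; exact ih _ (hG x hx)
  obtain ⟨a, b, hab, h⟩ : ∃ a b : ℕ, a < b ∧ ∀ x ∈ G, (u ^ a) x = (u ^ b) x := by
    obtain ⟨a, b, hne, h⟩ := Finite.exists_ne_map_eq_of_infinite
      (fun N : ℕ => (fun x : G => (⟨(u ^ N) x, hpow N x x.2⟩ : G)))
    rcases lt_or_gt_of_ne hne with h1 | h1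
    · exact ⟨a, b, h1, fun x hx => congrArg Subtype.val (congrFun h ⟨x, hx⟩)⟩
    · exact ⟨b, a, h1, fun x hx => (congrArg Subtype.val (congrFun h ⟨x, hx⟩)).symm⟩
  have hper : ∀ x ∈ G, ∀ j i : ℕ, (u ^ (a + j + i * (b - a))) x = (u ^ (a + j)) x := by
    intro x hx j i
    induction i with
    | zero => simp
    | succ i ih =>
      have h1 : a + j + (i + 1) * (b - a) = (j + i * (b - a)) + b := by
        have : (i + 1) * (b - a) = i * (b - a) + (b - a) := by ring
        omega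
      have h2 : a + j + i * (b - a) = (j + i * (b - a)) + a := by omega
      rw [h1, pow_add, Module.End.mul_apply, ← h x hx, ← Module.End.mul_apply, ← pow_add, ← h2, ih]
  refine ⟨(a + 1) * (b - a), Nat.mul_pos (Nat.succ_pos _) (Nat.sub_pos_of_lt hab), fun x hx => ?_⟩
  have h1 : a ≤ (a + 1) * (b - a) := by
    have : 1 ≤ b - a := Nat.sub_pos_of_lt hab
    nlinarith
  obtain ⟨j, hj⟩ := Nat.exists_eq_add_of_le h1
  rw [← Module.End.mul_apply, ← pow_add]
  have := hper x hx j (a + 1)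
  rw [← hj] at this
  exact this

/-- The decomposition of a finite stable subgroup. -/
theorem exists_decomp (u : Module.End ℤ J) (G : AddSubgroup J) [Finite G]
    (hG : ∀ x ∈ G, u x ∈ G) : ∃ e : Module.End ℤ J, (∀ x ∈ G, e x ∈ G ∧ e x ∈ perU u ∧
      x - e x ∈ nilU u) ∧ (∀ x ∈ G, x ∈ perU u → e x = x) ∧ (∀ x ∈ G, x ∈ nilU u → e x = 0) ∧
      ∃ N : ℕ, e = u ^ N := by
  obtain ⟨N, hN, h⟩ := exists_idem u G hG
  have hpow : ∀ (N : ℕ), ∀ x ∈ G, (u ^ N) x ∈ G := by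
    intro N
    induction N with
    | zero => intro x hx; rwa [pow_zero, Module.End.one_apply]
    | succ N ih => intro x hx; rw [pow_succ, Module.End.mul_apply]; exact ih _ (hG x hx)
  have h1 : ∀ x ∈ G, (u ^ N) x ∈ G ∧ (u ^ N) x ∈ perU u ∧ x - (u ^ N) x ∈ nilU u := by
    intro x hx
    refine ⟨hpow N x hx, ⟨N, hN, h x hx⟩, ⟨N, ?_⟩⟩
    rw [map_sub, h x hx, sub_self]
  refine ⟨u ^ N, h1, fun x hx hp => ?_, fun x hx hn => ?_, N, rfl⟩
  · obtain ⟨h2, h3, h4⟩ := h1 x hx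
    have h5 := eq_zero_of_per_nil ((perU u).sub_mem hp h3) h4
    exact (sub_eq_zero.mp h5).symm
  · obtain ⟨h2, h3, h4⟩ := h1 x hx
    have h5 : (u ^ N) x ∈ nilU u := by
      have := (nilU u).sub_mem hn h4
      rwa [sub_sub_cancel] at this
    exact eq_zero_of_per_nil h3 h5

/-- Counting the decomposition. -/
theorem card_decomp (u : Module.End ℤ J) (G : AddSubgroup J) [Finite G]
    (hG : ∀ x ∈ G, u x ∈ G) :
    Nat.card G = Nat.card (G ⊓ perU u : AddSubgroup J) * Nat.card (G ⊓ nilU u : AddSubgroup J) := by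
  obtain ⟨e, h1, h2, h3, -⟩ := exists_decomp u G hG
  rw [← Nat.card_prod]
  refine Nat.card_congr
    ⟨fun x => (⟨e x, (h1 x x.2).1, (h1 x x.2).2.1⟩,
      ⟨x - e x, G.sub_mem x.2 (h1 x x.2).1, (h1 x x.2).2.2⟩),
      fun y => ⟨y.1 + y.2, G.add_mem y.1.2.1 y.2.2.1⟩, ?_, ?_⟩
  · intro x
    exact Subtype.ext (add_sub_cancel _ _)
  · rintro ⟨⟨y, hy1, hy2⟩, ⟨z, hz1, hz2⟩⟩
    have h4 : e (y + z) = y := by rw [map_add, h2 y hy1 hy2, h3 z hz1 hz2, add_zero]
    refine Prod.ext (Subtype.ext h4) (Subtype.ext ?_)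
    change (y + z) - e (y + z) = z
    rw [h4, add_sub_cancel_left]

/-- the `p^k`-torsion -/
def torU (J : Type*) [AddCommGroup J] (p k : ℕ) : AddSubgroup J where
  carrier := {x | p ^ k • x = 0}
  zero_mem' := smul_zero _
  add_mem' := fun {x y} hx hy => by
    rw [Set.mem_ofPred_eq] at *
    rw [nsmul_add, hx, hy, add_zero]
  neg_mem' := fun {x} hx => by
    rw [Set.mem_ofPred_eq] at *
    rw [neg_nsmul, hx, neg_zero]

theorem mem_torU {p k : ℕ} {x : J} : x ∈ torU J p k ↔ p ^ k • x = 0 := Iff.rfl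

/-- the cardinality of the levels of a `p`-divisible tower -/
theorem card_tower {p : ℕ} (B : ℕ → AddSubgroup J) (h0 : ∀ x ∈ B 0, x = 0)
    (hdiv : ∀ k, ∀ x ∈ B k, ∃ y ∈ B (k + 1), p • y = x)
    (hmul : ∀ k, ∀ x ∈ B (k + 1), p • x ∈ B k)
    (hker : ∀ k, ∀ x : J, x ∈ B (k + 1) ∧ p • x = 0 ↔ x ∈ B 1) (k : ℕ) :
    Nat.card (B k) = Nat.card (B 1) ^ k := by
  induction k with
  | zero =>
    rw [pow_zero]
    have : Subsingleton (B 0) := ⟨fun x y => Subtype.ext ((h0 x x.2).trans (h0 y y.2).symm)⟩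
    exact Nat.card_of_subsingleton 0
  | succ k ih =>
    let f : B (k + 1) →+ B k :=
      { toFun := fun x => ⟨p • (x : J), hmul k x x.2⟩
        map_zero' := Subtype.ext (smul_zero _)
        map_add' := fun x y => Subtype.ext (nsmul_add _ _ _) }
    have hf : Function.Surjective f := by
      rintro ⟨x, hx⟩
      obtain ⟨y, hy, hyx⟩ := hdiv k x hx
      exact ⟨⟨y, hy⟩, Subtype.ext hyx⟩
    have h1 := AddSubgroup.card_eq_card_quotient_mul_card_addSubgroup f.ker
    have h2 : Nat.card (B (k + 1) ⧸ f.ker) = Nat.card (B k) :=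
      Nat.card_congr (QuotientAddGroup.quotientKerEquivOfSurjective f hf).toEquiv
    have h3 : Nat.card f.ker = Nat.card (B 1) := by
      refine Nat.card_congr ⟨fun x => ⟨(x.1 : J), (hker k _).mp ⟨x.1.2, congrArg Subtype.val x.2⟩⟩,
        fun x => ⟨⟨x, ((hker k _).mpr x.2).1⟩, Subtype.ext ((hker k _).mpr x.2).2⟩, ?_, ?_⟩
      · intro x; rfl
      · intro x; rfl
    rw [h1, h2, h3, ih, pow_succ]

/-- from bounded ratio to inequality -/
theorem le_of_pow_le {a b C : ℕ} (h : ∀ k : ℕ, a ^ k ≤ C * b ^ k) : a ≤ b := by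
  by_contra hlt
  push Not at hlt
  rcases Nat.eq_zero_or_pos b with rfl | hb
  · have := h 1
    simp only [pow_one, mul_zero] at this
    omega
  -- `(a / b) ^ k` is unbounded
  have h1 : (1 : ℝ) < (a : ℝ) / b := by
    rw [one_lt_div (by exact_mod_cast hb)]
    exact_mod_cast hlt
  obtain ⟨k, hk⟩ := pow_unbounded_of_one_lt (C : ℝ) h1
  rw [div_pow, lt_div_iff₀ (by positivity)] at hk
  have h2 : ((a ^ k : ℕ) : ℝ) ≤ ((C * b ^ k : ℕ) : ℝ) := by exact_mod_cast h k
  push_cast at h2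
  linarith

section Main

variable {p : ℕ} (hp : p.Prime) (u σ : Module.End ℤ J) (T : ℕ → AddSubgroup J)

/-- rank-nullity for `σ - 1` on a finite stable subgroup -/
theorem card_fix_mul {G H : AddSubgroup J} [Finite G] [Finite H]
    (hσ : ∀ x ∈ G, σ x - x ∈ H) :
    ∃ I : AddSubgroup J, I ≤ H ∧ (∀ y ∈ I, ∃ x ∈ G, σ x - x = y) ∧
      Nat.card G = Nat.card {x : J // x ∈ G ∧ σ x = x} * Nat.card I := by
  let f : G →+ H :=
    { toFun := fun x => ⟨σ x - x, hσ x x.2⟩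
      map_zero' := Subtype.ext (by simp)
      map_add' := fun x y => Subtype.ext (by
        change σ ((x : J) + y) - ((x : J) + y) = (σ x - x) + (σ y - y)
        rw [map_add]; abel) }
  refine ⟨f.range.map H.subtype, ?_, ?_, ?_⟩
  · rintro _ ⟨y, -, rfl⟩
    exact y.2
  · rintro _ ⟨y, ⟨x, rfl⟩, rfl⟩
    exact ⟨x, x.2, rfl⟩
  · have h1 := AddSubgroup.card_eq_card_quotient_mul_card_addSubgroup f.ker
    have h2 : Nat.card (G ⧸ f.ker) = Nat.card f.range :=
      Nat.card_congr (QuotientAddGroup.quotientKerEquivRange f).toEquiv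
    have h3 : Nat.card f.ker = Nat.card {x : J // x ∈ G ∧ σ x = x} := by
      refine Nat.card_congr ⟨fun x => ⟨(x.1 : J), x.1.2, sub_eq_zero.mp (congrArg Subtype.val x.2)⟩,
        fun x => ⟨⟨x, x.2.1⟩, Subtype.ext (sub_eq_zero.mpr x.2.2)⟩, ?_, ?_⟩
      · intro x; rfl
      · intro x; rfl
    have h4 : Nat.card (f.range.map H.subtype) = Nat.card f.range := by
      refine (Nat.card_congr ?_).symm
      exact (f.range.equivMapOfInjective H.subtype H.subtype_injective).toEquiv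
    rw [h1, h2, h3, h4, mul_comm]

include hp in
/-- **The abstract monodromy statement.** -/
theorem mono_abstract {g t g' C : ℕ} (hg : g = t + 2 * g')
    (hcomm : ∀ x, u (σ x) = σ (u x))
    (hcard : ∀ k, Nat.card (torU J p k) = p ^ (2 * g * k))
    (hdiv : ∀ k, ∀ x ∈ torU J p k, ∃ y, p • y = x)
    (hT : ∀ k, T k ≤ torU J p k) (hTu : ∀ k, ∀ x ∈ T k, u x ∈ T k)
    (hTcard : ∀ k, Nat.card (T k) = p ^ (t * k))
    (hTdiv : ∀ k, ∀ x ∈ T k, ∃ y ∈ T (k + 1), p • y = x)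
    (hTtor : ∀ k, ∀ x ∈ T (k + 1), p ^ k • x = 0 → x ∈ T k) (hTmono : ∀ k, T k ≤ T (k + 1))
    (hσT : ∀ k, ∀ x ∈ torU J p k, σ x - x ∈ T k)
    (hE : ∀ k, ∀ x ∈ torU J p k, σ x = x → u x ∈ T k)
    (hB : ∀ k, Nat.card {x : J // x ∈ torU J p k ⊓ nilU u ∧ σ x = x} ≤
      C * p ^ (4 * g' * k) * Nat.card (T k ⊓ nilU u : AddSubgroup J)) (k : ℕ) {x : J}
    (hx : x ∈ torU J p k) (hxu : x ∈ perU u) (hxσ : σ x = x) :
    ∃ y ∈ torU J p k, σ y - y = x := by
  have hp1 : 0 < p := hp.pos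
  have hfin : ∀ k, Finite (torU J p k) := fun k => Nat.finite_of_card_ne_zero (by
    rw [hcard]; positivity)
  have hfinT : ∀ k, Finite (T k) := fun k => Nat.finite_of_card_ne_zero (by
    rw [hTcard]; positivity)
  have hu : ∀ k, ∀ x ∈ torU J p k, u x ∈ torU J p k := fun k x hx => by
    rw [mem_torU] at *
    rw [← map_nsmul, hx, map_zero]
  have hσt : ∀ k, ∀ x ∈ torU J p k, σ x ∈ torU J p k := fun k x hx => by
    rw [mem_torU] at *
    rw [← map_nsmul, hx, map_zero]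
  have hupow : ∀ (N : ℕ) x, (u ^ N) (σ x) = σ ((u ^ N) x) := by
    intro N
    induction N with
    | zero => intro x; rfl
    | succ N ih => intro x; rw [pow_succ, Module.End.mul_apply, Module.End.mul_apply, hcomm, ih]
  set a₁ : ℕ → ℕ := fun k => Nat.card (torU J p k ⊓ perU u : AddSubgroup J) with ha₁
  set a₂ : ℕ → ℕ := fun k => Nat.card (torU J p k ⊓ nilU u : AddSubgroup J) with ha₂
  set t₁ : ℕ → ℕ := fun k => Nat.card (T k ⊓ perU u : AddSubgroup J) with ht₁
  set t₂ : ℕ → ℕ := fun k => Nat.card (T k ⊓ nilU u : AddSubgroup J) with ht₂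
  have hfa₁ : ∀ k, Finite (torU J p k ⊓ perU u : AddSubgroup J) := fun k =>
    Finite.Set.subset (torU J p k : Set J) (fun _ h => h.1)
  have hfa₂ : ∀ k, Finite (torU J p k ⊓ nilU u : AddSubgroup J) := fun k =>
    Finite.Set.subset (torU J p k : Set J) (fun _ h => h.1)
  have hft₁ : ∀ k, Finite (T k ⊓ perU u : AddSubgroup J) := fun k =>
    Finite.Set.subset (T k : Set J) (fun _ h => h.1)
  have hft₂ : ∀ k, Finite (T k ⊓ nilU u : AddSubgroup J) := fun k =>
    Finite.Set.subset (T k : Set J) (fun _ h => h.1)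
  have hA : ∀ k, p ^ (2 * g * k) = a₁ k * a₂ k := fun k => by
    rw [← hcard]; exact card_decomp u (torU J p k) (hu k)
  have hTT : ∀ k, p ^ (t * k) = t₁ k * t₂ k := fun k => by
    rw [← hTcard]; exact card_decomp u (T k) (hTu k)
  have hσper : ∀ {x}, x ∈ perU u → σ x - x ∈ perU u := by
    rintro x ⟨N, hN, h⟩
    exact (perU u).sub_mem ⟨N, hN, by rw [hupow, h]⟩ ⟨N, hN, h⟩
  have hσnil : ∀ {x}, x ∈ nilU u → σ x - x ∈ nilU u := by
    rintro x ⟨N, h⟩
    exact (nilU u).sub_mem ⟨N, by rw [hupow, h, map_zero]⟩ ⟨N, h⟩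
  -- block 2
  have h2 : ∀ k, a₂ k ≤ C * p ^ (4 * g' * k) * t₂ k * t₂ k := by
    intro k
    obtain ⟨I, hI, -, hc⟩ := card_fix_mul σ (G := torU J p k ⊓ nilU u) (H := T k ⊓ nilU u)
      (fun x hx => ⟨hσT k x hx.1, hσnil hx.2⟩)
    have h3 : Nat.card I ≤ t₂ k := AddSubgroup.card_le_of_le hI
    calc a₂ k = _ := hc
      _ ≤ (C * p ^ (4 * g' * k) * t₂ k) * t₂ k := Nat.mul_le_mul (hB k) h3
  -- `t₁² ≤ C a₁`
  have h3 : ∀ k, t₁ k * t₁ k ≤ C * a₁ k := by
    intro k
    have e1 : p ^ (2 * g * k) = p ^ (t * k) * p ^ (t * k) * p ^ (4 * g' * k) := by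
      rw [← pow_add, ← pow_add, hg]; congr 1; ring
    have ht2 : 0 < t₂ k := Nat.card_pos
    have hpp : 0 < p ^ (4 * g' * k) := by positivity
    have e2 : t₁ k * t₁ k * (t₂ k * t₂ k * p ^ (4 * g' * k)) ≤
        C * a₁ k * (t₂ k * t₂ k * p ^ (4 * g' * k)) := by
      calc t₁ k * t₁ k * (t₂ k * t₂ k * p ^ (4 * g' * k))
          = (t₁ k * t₂ k) * (t₁ k * t₂ k) * p ^ (4 * g' * k) := by ring
        _ = a₁ k * a₂ k := by rw [← hTT, ← e1, hA]
        _ ≤ a₁ k * (C * p ^ (4 * g' * k) * t₂ k * t₂ k) := Nat.mul_le_mul_left _ (h2 k)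
        _ = _ := by ring
    exact Nat.le_of_mul_le_mul_right e2 (by positivity)
  -- towers
  have ht0 : ∀ x ∈ torU J p 0, x = 0 := fun x hx => by
    rwa [mem_torU, pow_zero, one_smul] at hx
  have hsucc : ∀ k, ∀ x ∈ torU J p (k + 1), p • x ∈ torU J p k := fun k x hx => by
    rw [mem_torU] at *
    rw [smul_smul, ← pow_succ, hx]
  have hperp : ∀ {x}, x ∈ perU u → p • x ∈ perU u := fun hx => (perU u).nsmul_mem hx p
  have ha1 : ∀ k, a₁ k = a₁ 1 ^ k := by
    refine card_tower (p := p) (fun k => torU J p k ⊓ perU u) (fun x hx => ht0 x hx.1) ?_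
      (fun k x hx => ⟨hsucc k x hx.1, hperp hx.2⟩) ?_
    · rintro k x ⟨hx, hxp⟩
      obtain ⟨y, hy⟩ := hdiv k x hx
      have hy1 : y ∈ torU J p (k + 1) := by
        rw [mem_torU, pow_succ, mul_smul, hy]; exact hx
      obtain ⟨e, h4, h5, h6, N, rfl⟩ := exists_decomp u (torU J p (k + 1)) (hu (k + 1))
      have hx1 : x ∈ torU J p (k + 1) := by
        rw [mem_torU] at *
        rw [pow_succ', mul_smul, hx, smul_zero]
      refine ⟨(u ^ N) y, ⟨(h4 y hy1).1, (h4 y hy1).2.1⟩, ?_⟩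
      rw [← map_nsmul, hy, h5 x hx1 hxp]
    · intro k x
      constructor
      · rintro ⟨⟨h4, h5⟩, h6⟩
        exact ⟨show p ^ 1 • x = 0 by rw [pow_one]; exact h6, h5⟩
      · rintro ⟨h4, h5⟩
        replace h4 : p ^ 1 • x = 0 := h4
        rw [pow_one] at h4
        exact ⟨⟨show p ^ (k + 1) • x = 0 by rw [pow_succ, mul_smul, h4, smul_zero], h5⟩, h4⟩
  have ht1 : ∀ k, t₁ k = t₁ 1 ^ k := by
    refine card_tower (p := p) (fun k => T k ⊓ perU u) (fun x hx => ht0 x (hT 0 hx.1)) ?_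
      (fun k x hx => ⟨?_, hperp hx.2⟩) ?_
    · rintro k x ⟨hx, hxp⟩
      obtain ⟨y, hy1, hy⟩ := hTdiv k x hx
      obtain ⟨e, h4, h5, h6, N, rfl⟩ := exists_decomp u (T (k + 1)) (hTu (k + 1))
      refine ⟨(u ^ N) y, ⟨(h4 y hy1).1, (h4 y hy1).2.1⟩, ?_⟩
      rw [← map_nsmul, hy, h5 x (hTmono k hx) hxp]
    · exact hTtor k _ ((T (k + 1)).nsmul_mem hx.1 p) (hsucc k x (hT _ hx.1))
    · intro k x
      constructor
      · rintro ⟨⟨h4, h5⟩, h6⟩
        refine ⟨?_, h5⟩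
        have key : ∀ j, x ∈ T (j + 1) → x ∈ T 1 := by
          intro j
          induction j with
          | zero => exact id
          | succ j ih =>
            intro h7
            refine ih (hTtor (j + 1) x h7 ?_)
            rw [pow_succ, mul_smul, h6, smul_zero]
        exact key k h4
      · rintro ⟨h4, h5⟩
        have h6 := hT 1 h4
        rw [mem_torU, pow_one] at h6
        have key : ∀ j, x ∈ T (j + 1) := by
          intro j
          induction j with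
          | zero => exact h4
          | succ j ih => exact hTmono _ ih
        exact ⟨⟨key k, h5⟩, h6⟩
  have h4 : t₁ 1 * t₁ 1 ≤ a₁ 1 := by
    refine le_of_pow_le (C := C) fun k => ?_
    have := h3 k
    rwa [ht1, ha1, ← mul_pow] at this
  have h5 : t₁ k * t₁ k ≤ a₁ k := by
    rw [ht1, ha1, ← mul_pow]
    exact Nat.pow_le_pow_left h4 k
  -- block 1
  obtain ⟨I, hI, hI2, hc⟩ := card_fix_mul σ (G := torU J p k ⊓ perU u) (H := T k ⊓ perU u)
    (fun x hx => ⟨hσT k x hx.1, hσper hx.2⟩)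
  have hfixT : ∀ x : J, x ∈ torU J p k ⊓ perU u → σ x = x → x ∈ T k ⊓ perU u := by
    rintro x ⟨hx, N, hN, hxN⟩ hxσ
    refine ⟨?_, N, hN, hxN⟩
    have h6 : ∀ M : ℕ, σ ((u ^ M) x) = (u ^ M) x := fun M => by rw [← hupow, hxσ]
    have h7 : (u ^ (N - 1)) x ∈ torU J p k := by
      have : ∀ M : ℕ, (u ^ M) x ∈ torU J p k := by
        intro M
        induction M with
        | zero => exact hx
        | succ M ih => rw [pow_succ', Module.End.mul_apply]; exact hu k _ ih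
      exact this _
    have h8 := hE k _ h7 (h6 _)
    rwa [← Module.End.mul_apply, ← pow_succ', Nat.sub_add_cancel hN, hxN] at h8
  have h6 : Nat.card {x : J // x ∈ torU J p k ⊓ perU u ∧ σ x = x} ≤ t₁ k :=
    Nat.card_le_card_of_injective (fun x => (⟨x.1, hfixT x.1 x.2.1 x.2.2⟩ :
      (T k ⊓ perU u : AddSubgroup J))) (fun x y h => Subtype.ext
        (congrArg (fun z : (T k ⊓ perU u : AddSubgroup J) => (z : J)) h))
  have h7 : t₁ k ≤ Nat.card I := by
    have e1 : t₁ k * t₁ k ≤ t₁ k * Nat.card I := by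
      calc t₁ k * t₁ k ≤ a₁ k := h5
        _ = _ := hc
        _ ≤ t₁ k * Nat.card I := Nat.mul_le_mul_right _ h6
    exact Nat.le_of_mul_le_mul_left e1 Nat.card_pos
  have h8 : I = T k ⊓ perU u := AddSubgroup.eq_of_le_of_card_ge hI h7
  have h9 : x ∈ I := by
    rw [h8]
    exact hfixT x ⟨hx, hxu⟩ hxσ
  obtain ⟨y, hy, hyx⟩ := hI2 x h9
  exact ⟨y, hy.1, hyx⟩

end Main

end Fermat.Agent.RibetE
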