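import Fermat.Agent.Cofaith.Weight
import Fermat.Agent.TSide.SplFinal
import Fermat.Agent.S37aux.RI
import Fermat.Agent.Cofaith.Finite

/-!
# The operator `T_ℓ - (ℓ + 1)` on the torsion of `J₀(N)`

Its kernel is killed by a fixed nonzero integer and it is onto on `p`-power torsion.
-/

set_option autoImplicit false
set_option linter.style.haveILetI false

noncomputable section

open CuspForm ModularCurve Fermat.Agent.GalRep Fermat.Agent.TSide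

namespace Fermat.Agent.RibetE

/-- The primes dividing `N`. -/
def badS (N : ℕ) : Set ℕ := {ℓ | ℓ.Prime ∧ ℓ ∣ N}

theorem finite_badS (N : ℕ) [NeZero N] : (badS N).Finite :=
  (Nat.divisors N).finite_toSet.subset fun _ h => Nat.mem_divisors.mpr ⟨h.2, NeZero.ne N⟩

/-- **The kernel of `T_ℓ - (ℓ + 1)`**: there is an integer `n ≠ 0` and a Hecke operator `u` with
`u ∘ (T_ℓ - (ℓ + 1)) = (T_ℓ - (ℓ + 1)) ∘ u = n` on the torsion of `J₀(N)`. -/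
theorem exists_mul_etaOp (N : ℕ) [NeZero N] (ℓ : Nat.Primes) (hℓ : ¬ (ℓ : ℕ) ∣ N) :
    ∃ (u : HeckeAlg) (n : ℕ), n ≠ 0 ∧ ∀ k : ℕ, k ≠ 0 → ∀ x : JZero N, k • x = 0 →
      (letI := heckeModuleBar N
       u • etaOp N ℓ x = n • x ∧ etaOp N ℓ (u • x) = n • x) := by
  have hS : ∀ l : ℕ, l.Prime → l ∣ N → l ∈ badS N := fun l h1 h2 => ⟨h1, h2⟩
  obtain ⟨u, n, hn, h⟩ := Cofaith.exists_weight N (badS N) hS ⟨ℓ, fun h => hℓ h.2⟩
    (m := ((ℓ : ℕ) : ℤ) + 1) (le_abs_self _)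
  refine ⟨inclS (badS N) u, n, hn, fun k hk x hx => ?_⟩
  letI := heckeModuleBar N
  have hη : ∀ y : JZero N, inclS (badS N) (MvPolynomial.X ⟨ℓ, fun h => hℓ h.2⟩ -
      (((((ℓ : ℕ) : ℤ) + 1 : ℤ)) : HeckeAlgS (badS N))) • y = etaOp N ℓ y := by
    intro y
    rw [map_sub, sub_smul, inclS, MvPolynomial.rename_X, map_intCast, Int.cast_smul_eq_zsmul,
      etaOp_apply]
    congr 1
    exact heckeModuleBar_heckeGen_smul (HeckeComm.heckeOperatorsCommuteBar N) ℓ y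
  have h1 := h k hk x hx
  refine ⟨?_, ?_⟩
  · rw [← hη, ← mul_smul, ← map_mul]
    exact h1
  · rw [← hη, ← mul_smul, ← map_mul, mul_comm]
    exact h1

/-- The kernel of `T_ℓ - (ℓ + 1)` on torsion points is killed by a fixed integer. -/
theorem exists_nsmul_eq_zero_of_etaOp (N : ℕ) [NeZero N] (ℓ : Nat.Primes) (hℓ : ¬ (ℓ : ℕ) ∣ N) :
    ∃ n : ℕ, n ≠ 0 ∧ ∀ k : ℕ, k ≠ 0 → ∀ x : JZero N, k • x = 0 → etaOp N ℓ x = 0 →
      n • x = 0 := by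
  obtain ⟨u, n, hn, h⟩ := exists_mul_etaOp N ℓ hℓ
  refine ⟨n, hn, fun k hk x hx h0 => ?_⟩
  letI := heckeModuleBar N
  rw [← (h k hk x hx).1, h0, smul_zero]

/-- **Surjectivity of `T_ℓ - (ℓ + 1)`** on torsion points of `p`-power order, with a preimage
obtained from a division point by a Hecke operator. -/
theorem exists_etaOp_eq (N : ℕ) [NeZero N] (ℓ : Nat.Primes) (hℓ : ¬ (ℓ : ℕ) ∣ N) :
    ∃ (u : HeckeAlg) (n : ℕ), n ≠ 0 ∧ ∀ k : ℕ, k ≠ 0 → ∀ x y : JZero N, k • x = 0 →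
      n • x = y → (letI := heckeModuleBar N; etaOp N ℓ (u • x) = y) := by
  obtain ⟨u, n, hn, h⟩ := exists_mul_etaOp N ℓ hℓ
  refine ⟨u, n, hn, fun k hk x y hx hxy => ?_⟩
  rw [← hxy]
  exact (h k hk x hx).2

/-- A `p`-power version of divisibility: `n • x = y` with `x` of `p`-power order. -/
theorem exists_nsmul_of_pow {G : Type*} [AddCommGroup G]
    (hdiv : ∀ n : ℕ, n ≠ 0 → ∀ y : G, ∃ x : G, n • x = y) {p : ℕ} (hp : p.Prime) {n : ℕ}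
    (hn : n ≠ 0) {j : ℕ} {y : G} (hy : p ^ j • y = 0) :
    ∃ (i : ℕ) (x : G), p ^ i • x = 0 ∧ n • x = y := by
  obtain ⟨i, n', hn', rfl⟩ := Nat.exists_eq_pow_mul_and_not_dvd hn p hp.ne_one
  obtain ⟨x₁, hx₁⟩ := hdiv (p ^ i) (pow_ne_zero _ hp.ne_zero) y
  have h1 : p ^ (i + j) • x₁ = 0 := by
    rw [pow_add, mul_comm, mul_smul, hx₁, hy]
  have hcop : Nat.Coprime n' (p ^ (i + j)) :=
    Nat.Coprime.pow_right _ ((Nat.Prime.coprime_iff_not_dvd hp).mpr hn').symm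
  obtain ⟨a, b, hab⟩ : IsCoprime ((n' : ℤ)) ((p ^ (i + j) : ℕ) : ℤ) :=
    Nat.isCoprime_iff_coprime.mpr hcop
  refine ⟨i + j, a • x₁, by rw [smul_comm, h1, smul_zero], ?_⟩
  have h2 : (n' : ℤ) • a • x₁ = x₁ := by
    have h3 : ((1 : ℤ)) • x₁ = x₁ := one_smul _ _
    rw [← hab, add_smul, mul_smul b, natCast_zsmul, h1, smul_zero, add_zero, mul_comm,
      mul_smul] at h3
    exact h3
  rw [mul_smul, ← natCast_zsmul (a • x₁) n', h2, hx₁]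

/-- **`T_ℓ - (ℓ + 1)` is onto on the `p`-power torsion of `J₀(N)`.** -/
theorem exists_etaOp_eq_of_pow (N : ℕ) [NeZero N] (ℓ : Nat.Primes) (hℓ : ¬ (ℓ : ℕ) ∣ N) {p : ℕ}
    (hp : p.Prime) {j : ℕ} {y : JZero N} (hy : p ^ j • y = 0) :
    ∃ (i : ℕ) (x : JZero N), p ^ i • x = 0 ∧ etaOp N ℓ x = y := by
  obtain ⟨u, n, hn, h⟩ := exists_etaOp_eq N ℓ hℓ
  obtain ⟨i, x, hx, hxy⟩ := exists_nsmul_of_pow (S37aux.jZero_divisible N) hp hn hy
  letI := heckeModuleBar N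
  refine ⟨i, u • x, ?_, h _ (pow_ne_zero _ hp.ne_zero) x y hx hxy⟩
  rw [smul_comm, hx, smul_zero]

/-- The kernel of `T_ℓ - (ℓ + 1)` on the torsion of `J₀(N)` is finite. -/
theorem finite_ker_etaOp (N : ℕ) [NeZero N] (ℓ : Nat.Primes) (hℓ : ¬ (ℓ : ℕ) ∣ N) :
    {x : JZero N | (∃ k : ℕ, k ≠ 0 ∧ k • x = 0) ∧ etaOp N ℓ x = 0}.Finite := by
  obtain ⟨n, hn, h⟩ := exists_nsmul_eq_zero_of_etaOp N ℓ hℓ
  have h1 : {x : JZero N | n • x = 0}.Finite := by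
    exact Cofaith.finite_torsion_set N hn
  exact h1.subset fun x ⟨⟨k, hk, hx⟩, h0⟩ => h k hk x hx h0

end Fermat.Agent.RibetE

end
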