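import Fermat.Agent.RibetE.Main
import Fermat.Agent.Star.InstUnit
import Fermat.Agent.Star.InstGood
import Fermat.Agent.TwoComp.Full4
import Fermat.Agent.TSide.SplFinal

/-!
# `(T_ℓ - (ℓ + 1)) x` lies in the connected part, for `x` fixed by inertia
-/

set_option autoImplicit false
set_option linter.unusedSectionVars false

noncomputable section

open ModularCurve HahnSeries Module AlgebraicCurve
open Fermat.Agent.GaussVal Fermat.Agent.FF Fermat.Agent.RR Fermat.Agent.TwoGauss
open Fermat.Agent.TEll Fermat.Agent.Star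
open scoped Fermat.Agent.GaussVal
open SemilinearAut Fermat.Agent.Star.Model Fermat.Agent.Star.Model.Pt
open Fermat.Agent.TSide (etaOp unrTors etaOp_apply)

namespace Fermat.Agent.RibetE

/-- the algebraic numbers -/
local notation "𝕂" => AlgebraicClosure ℚ

section

variable {A : ValuationSubring (AlgebraicClosure ℚ)} {q m : ℕ} [NeZero m]
  [Fact q.Prime] [CharP (IsLocalRing.ResidueField A) q]
  (hq : q.Prime) (hm : ¬ q ∣ m) (hA : A.LiesOverPrime q)

/-- the residue field -/
local notation "κ" => IsLocalRing.ResidueField A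

/-- `n` is prime to the widths of the nodes of `X₀(m q)` at `A`. -/
def CopWidths (n : ℕ) : Prop :=
  ∀ (H3 : S18aux.DegThm (IsLocalRing.ResidueField A) m)
    [IsFF κ (modularFunctionFieldFullC κ m)]
    (hM : (Star.Inst.model (m := m) hq hm hA H3).Good)
    (P : (Star.Inst.model (m := m) hq hm hA H3).Pt)
    (C : Coord (Star.Inst.unitData (m := m) hq hm hA H3) hM P),
    (∀ i, i ∈ P.on) → Nat.Coprime n C.w

theorem copWidths_of_coprime {n : ℕ} (h : Nat.Coprime n 12) :
    CopWidths (m := m) hq hm hA n := by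
  intro H3 _ hM P C _
  have hE : (Star.Inst.unitData (m := m) hq hm hA H3).E = 12 := rfl
  refine Nat.Coprime.coprime_dvd_right ?_ h
  have := C.o_mul
  rw [hE] at this
  exact ⟨C.o, by rw [mul_comm]; exact this.symm⟩

/-- **(E1-FIX)** for `x` of order dividing `n`, fixed by inertia at `q`, `n` prime to the widths of
the nodes: `(T_ℓ - (ℓ + 1)) x` is in the connected part. -/
theorem etaOp_mem_J0 [IsFF κ (modularFunctionFieldFullC κ m)] {n : ℕ} (hn : 0 < n) (hcop : CopWidths (m := m) hq hm hA n)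
    (ℓ : Nat.Primes) (hℓ : ¬ (ℓ : ℕ) ∣ m * q) {x : JZero (m * q)} (hx : x ∈ unrTors A (m * q) n) :
    etaOp (m * q) ℓ x ∈ (TwoGauss.twoComp hq hm hA).J0 n := by
  have H3 := GoodRed.degThm_res hq hA (NeZero.ne m) hm
  have hM := Star.Inst.good hq hm hA H3
  have : NeZero (ℓ : ℕ) := ⟨ℓ.2.ne_zero⟩
  obtain ⟨D, f, hf0, hxD, ho, -, hr⟩ := exists_good_rep hq hm hA H3 ℓ.2 hℓ hM
    (Star.Inst.unitData hq hm hA H3) hn (hcop H3 hM) hx.1 hx.2
  obtain ⟨a1, a2, a3⟩ := hr 0
  obtain ⟨b1, b2, b3⟩ := hr 1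
  have h1 : (Star.Inst.model (m := m) hq hm hA H3).ρ 0 ⟨f, a1⟩ ≠ 0 := by
    rw [← Star.tred_of_mem a1]
    exact (Model.red_ne_zero_iff a1).mpr ⟨hf0, a2⟩
  have h2 : (Star.Inst.model (m := m) hq hm hA H3).ρ 1 ⟨f, b1⟩ ≠ 0 := by
    rw [← Star.tred_of_mem b1]
    exact (Model.red_ne_zero_iff b1).mpr ⟨hf0, b2⟩
  refine ⟨D, ⟨f, a1, b1⟩, hxD, ⟨Divisor.mem_degZero.mp D.2, h1, h2, ho⟩, ?_, ?_⟩
  · refine Finset.eq_empty_of_forall_notMem fun w hw => ?_
    rw [TwoComp.mem_bad] at hw
    apply hw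
    have := a3 w
    rwa [Model.red, Star.tred_of_mem a1] at this
  · refine Finset.eq_empty_of_forall_notMem fun w hw => ?_
    rw [TwoComp.mem_bad] at hw
    apply hw
    have := b3 w
    rwa [Model.red, Star.tred_of_mem b1] at this

end

end Fermat.Agent.RibetE
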