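import Fermat.Agent.RibetE.Rel
import Fermat.Agent.Star.Inst
import Fermat.Agent.QX4.Inst
import Fermat.Agent.GoodRed.GenusAll

/-!
# Hecke operators and the reductions of `X₀(m q)` at `q`
-/

set_option autoImplicit false
set_option linter.unusedSectionVars false

noncomputable section

open ModularCurve HahnSeries Module AlgebraicCurve
open Fermat.Agent.GaussVal Fermat.Agent.FF Fermat.Agent.RR Fermat.Agent.TwoGauss
open Fermat.Agent.TEll
open scoped Fermat.Agent.GaussVal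

namespace Fermat.Agent.RibetE

/-- the algebraic numbers -/
local notation "𝕂" => AlgebraicClosure ℚ

section

variable {A : ValuationSubring (AlgebraicClosure ℚ)} {q m : ℕ} [NeZero m]
  [Fact q.Prime] [CharP (IsLocalRing.ResidueField A) q]
  (hq : q.Prime) (hm : ¬ q ∣ m) (hA : A.LiesOverPrime q)
  (H3 : S18aux.DegThm (IsLocalRing.ResidueField A) m)
  {ℓ : ℕ} [NeZero ℓ] (hℓ : ℓ.Prime) (hℓN : ¬ ℓ ∣ m * q)

/-- the residue field -/
local notation "κ" => IsLocalRing.ResidueField A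

theorem coe_TEll_mem {N : ℕ} [NeZero N] (hℓN : ¬ ℓ ∣ N) (hℓ : ℓ.Prime)
    {f : modularFunctionFieldBar N} (hf : (f : LaurentSeries 𝕂) ∈ gaussSubring A) :
    ∃ h : (TEll 𝕂 N ℓ f : LaurentSeries 𝕂) ∈ gaussSubring A,
      gaussRed A ⟨_, h⟩ = TSer κ ℓ (gaussRed A ⟨(f : LaurentSeries 𝕂), hf⟩) := by
  have e := coe_TEll_bar N ℓ hℓ hℓN f
  have h1 := TSer_mem_gaussSubring A ℓ hf
  refine ⟨by rw [e]; exact h1, ?_⟩
  rw [← gaussRed_TSer A ℓ ⟨(f : LaurentSeries 𝕂), hf⟩]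
  congr 1
  exact Subtype.ext e

include hq hA H3 hℓ hℓN in
/-- `T_ℓ` on the function field of the special fibre. -/
theorem TSer_mem_full (ψ : modularFunctionFieldFullC κ m) :
    TSer κ ℓ (ψ : LaurentSeries κ) ∈ modularFunctionFieldFullC κ m := by
  obtain ⟨⟨g, hg⟩, rfl⟩ := (Gm hq hA H3).ρ_surj ψ
  have h1 := (mem_Gm_O hq hA H3).mp hg
  obtain ⟨h2, h3⟩ := coe_TEll_mem (A := A) (N := m) (fun h => hℓN (h.mul_right q)) hℓ h1
  rw [coe_Gm_ρ hq hA H3 g hg, ← h3]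
  have h4 := coe_Gm_ρ hq hA H3 (TEll 𝕂 m ℓ g) h2
  rw [← h4]
  exact Subtype.mem _

/-- `T_ℓ` on the function field of the special fibre. -/
def TF : modularFunctionFieldFullC κ m →* modularFunctionFieldFullC κ m where
  toFun ψ := ⟨TSer κ ℓ (ψ : LaurentSeries κ), TSer_mem_full hq hA H3 hℓ hℓN ψ⟩
  map_one' := Subtype.ext (map_one (TSer κ ℓ))
  map_mul' x y := Subtype.ext (map_mul (TSer κ ℓ) (x : LaurentSeries κ) y)

theorem coe_TF (ψ : modularFunctionFieldFullC κ m) :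
    (TF hq hA H3 hℓ hℓN ψ : LaurentSeries κ) = TSer κ ℓ (ψ : LaurentSeries κ) := rfl

/-- divisors and `T_ℓ` -/
theorem hecke_rep {N : ℕ} [NeZero N] (n : ℕ)
    (D : Divisor.degZero (K := 𝕂) (F := modularFunctionFieldBar N))
    (f : modularFunctionFieldBar N) (hf : f ≠ 0)
    (h : ∀ v : Place 𝕂 (modularFunctionFieldBar N), v.ord f = n * (D : Divisor _ _) v) :
    ∃ D' : Divisor.degZero (K := 𝕂) (F := modularFunctionFieldBar N),
      heckeOperatorBar N ⟨ℓ, hℓ⟩ (Pic0.mk D) = Pic0.mk D' ∧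
        ∀ v : Place 𝕂 (modularFunctionFieldBar N),
          v.ord (TEll 𝕂 N ℓ f) = n * (D' : Divisor _ _) v := by
  obtain ⟨D', h1, h2⟩ := heckeOperatorBar_mk (N := N) ⟨ℓ, hℓ⟩ D
  refine ⟨D', h2, fun v => ?_⟩
  have h3 : (div f : Divisor 𝕂 (modularFunctionFieldBar N)) = n • (D : Divisor _ _) := by
    ext v
    rw [div_apply, h v, Finsupp.smul_apply, nsmul_eq_mul]
  have h4 := heckeDiv_div (N := N) (ℓ := ℓ) hf
  rw [h3, map_nsmul] at h4
  rw [← div_apply, ← h4, Finsupp.smul_apply, nsmul_eq_mul, h1]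

/-- the operator `T_ℓ` as a monoid homomorphism -/
abbrev TN (N ℓ : ℕ) [NeZero N] [NeZero ℓ] :
    modularFunctionFieldBar N →* modularFunctionFieldBar N := TEll 𝕂 N ℓ

theorem compatible_m : Compatible (Gm hq hA H3).O (Gm hq hA H3).ρ (TN m ℓ)
    (heckeOperatorBar m ⟨ℓ, hℓ⟩) (TF hq hA H3 hℓ hℓN) where
  rep n D f hf h := hecke_rep hℓ n D f hf h
  mem f hf := by
    have h1 := (mem_Gm_O hq hA H3).mp hf
    obtain ⟨h2, h3⟩ := coe_TEll_mem (A := A) (N := m) (fun h => hℓN (h.mul_right q)) hℓ h1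
    refine ⟨h2, Subtype.ext ?_⟩
    rw [coe_TF, coe_Gm_ρ hq hA H3 _ h2, coe_Gm_ρ hq hA H3 f hf, ← h3]

theorem coe_ρ₁' (x : modularFunctionFieldBar (m * q)) (hx : x ∈ O₁ hq hA) :
    ((ρ₁ hq hm hA H3 ⟨x, hx⟩ : modularFunctionFieldFullC κ m) : LaurentSeries κ) =
      gaussRed A ⟨(x : LaurentSeries 𝕂), hx⟩ :=
  coe_ρ₁ hq hm hA H3 ⟨x, hx⟩

theorem coe_ρ₂' (x : modularFunctionFieldBar (m * q)) (hx : x ∈ O₂ hq hm hA) :
    ((ρ₂ hq hm hA H3 ⟨x, hx⟩ : modularFunctionFieldFullC κ m) : LaurentSeries κ) =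
      gaussRed A ⟨(wq hq hm x : LaurentSeries 𝕂), hx⟩ :=
  coe_ρ₂ hq hm hA H3 ⟨x, hx⟩

theorem compatible₁ : Compatible (O₁ hq hA) (ρ₁ hq hm hA H3) (TN (m * q) ℓ)
    (heckeOperatorBar (m * q) ⟨ℓ, hℓ⟩) (TF hq hA H3 hℓ hℓN) where
  rep n D f hf h := hecke_rep hℓ n D f hf h
  mem f hf := by
    have h1 : (f : LaurentSeries 𝕂) ∈ gaussSubring A := hf
    obtain ⟨h2, h3⟩ := coe_TEll_mem (A := A) (N := m * q) hℓN hℓ h1
    refine ⟨h2, Subtype.ext ?_⟩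
    rw [coe_TF, coe_ρ₁' hq hm hA H3 _ h2, coe_ρ₁' hq hm hA H3 f hf, ← h3]

theorem compatible₂ : Compatible (O₂ hq hm hA) (ρ₂ hq hm hA H3) (TN (m * q) ℓ)
    (heckeOperatorBar (m * q) ⟨ℓ, hℓ⟩) (TF hq hA H3 hℓ hℓN) where
  rep n D f hf h := hecke_rep hℓ n D f hf h
  mem f hf := by
    have h1 : (wq hq hm f : LaurentSeries 𝕂) ∈ gaussSubring A := hf
    have hqℓ : Nat.Coprime q ℓ := (Nat.coprime_primes hq hℓ).mpr (by
      rintro rfl; exact hℓN (dvd_mul_left _ _))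
    have e := QX4.TEll_wq (m := m) (q := q) (ℓ := ℓ) hq hm hqℓ f
    obtain ⟨h2, h3⟩ := coe_TEll_mem (A := A) (N := m * q) hℓN hℓ h1
    have h2' : (wq hq hm (TEll 𝕂 (m * q) ℓ f) : LaurentSeries 𝕂) ∈ gaussSubring A := by
      rw [← e]; exact h2
    refine ⟨h2', Subtype.ext ?_⟩
    rw [coe_TF, coe_ρ₂' hq hm hA H3 _ h2', coe_ρ₂' hq hm hA H3 f hf, ← h3]
    congr 1
    exact Subtype.ext
      (congrArg (fun z : modularFunctionFieldBar (m * q) => (z : LaurentSeries 𝕂)) e.symm)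

end

end Fermat.Agent.RibetE
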