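import Fermat.Agent.QX4.Defs

/-!
# Kummer classes of reductions

`O ⊂ F` a valuation ring with residue map `ρ : O → F'`. A torsion class `x ∈ Pic⁰(F)[n]`,
`x = [D]`, `n D = div f`, `f` a unit of `O`, has a Kummer class `ρ f ∈ F'ˣ / F'ˣⁿ`.
-/

set_option autoImplicit false
set_option linter.unusedSectionVars false

noncomputable section

open AlgebraicCurve
open Fermat.Agent.QX4 (Split)

namespace Fermat.Agent.RibetE

variable {K F F' : Type*} [Field K] [Field F] [Algebra K F] [Field F']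

/-- `ψ` represents the Kummer class of the reduction of `x`. -/
def IsK (O : ValuationSubring F) (ρ : O →+* F') (n : ℕ) (x : Pic0 K F) (ψ : F') : Prop :=
  ψ ≠ 0 ∧ ∃ (D : Divisor.degZero (K := K) (F := F)) (f : F) (hf : f ∈ O) (u : F'), x = Pic0.mk D ∧
    u ≠ 0 ∧ (∀ v : Place K F, v.ord f = n * (D : Divisor K F) v) ∧ ρ ⟨f, hf⟩ = ψ * u ^ n

variable {O : ValuationSubring F} {ρ : O →+* F'} {n : ℕ}

theorem split_iff_isK {x : Pic0 K F} : Split O ρ n x ↔ IsK O ρ n x 1 := by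
  constructor
  · rintro ⟨D, f, hf, u, h1, h2, h3, h4⟩
    exact ⟨one_ne_zero, D, f, hf, u, h1, h2, h3, by rw [h4, one_mul]⟩
  · rintro ⟨-, D, f, hf, u, h1, h2, h3, h4⟩
    exact ⟨D, f, hf, u, h1, h2, h3, by rw [h4, one_mul]⟩

theorem IsK.congr {x : Pic0 K F} {ψ : F'} (h : IsK O ρ n x ψ) {w : F'} (hw : w ≠ 0) :
    IsK O ρ n x (ψ * w ^ n) := by
  obtain ⟨h0, D, f, hf, u, h1, h2, h3, h4⟩ := h
  refine ⟨mul_ne_zero h0 (pow_ne_zero _ hw), D, f, hf, u / w, h1, div_ne_zero h2 hw, h3, ?_⟩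
  rw [h4, div_pow, mul_assoc, mul_div_cancel₀ _ (pow_ne_zero _ hw)]

theorem IsK.mul {x y : Pic0 K F} {ψ φ : F'} (hx : IsK O ρ n x ψ) (hy : IsK O ρ n y φ) :
    IsK O ρ n (x + y) (ψ * φ) := by
  obtain ⟨h0, D, f, hf, u, h1, h2, h3, h4⟩ := hx
  obtain ⟨h0', E, g, hg, w, h1', h2', h3', h4'⟩ := hy
  have hf0 : f ≠ 0 := by
    rintro rfl
    rw [show (⟨0, hf⟩ : O) = 0 from rfl, map_zero] at h4
    exact mul_ne_zero h0 (pow_ne_zero n h2) h4.symm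
  have hg0 : g ≠ 0 := by
    rintro rfl
    rw [show (⟨0, hg⟩ : O) = 0 from rfl, map_zero] at h4'
    exact mul_ne_zero h0' (pow_ne_zero n h2') h4'.symm
  refine ⟨mul_ne_zero h0 h0', D + E, f * g, mul_mem hf hg, u * w, ?_, mul_ne_zero h2 h2',
    fun v => ?_, ?_⟩
  · rw [h1, h1']; rfl
  · rw [v.ord_mul hf0 hg0, h3, h3', AddSubgroup.coe_add, Finsupp.add_apply]; ring
  · rw [show (⟨f * g, mul_mem hf hg⟩ : O) = ⟨f, hf⟩ * ⟨g, hg⟩ from rfl, map_mul, h4, h4', mul_pow]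
    ring

variable (hρ : ∀ y : O, ρ y ≠ 0 → IsUnit y)

include hρ in
theorem inv_mem_of_ρ {f : F} (hf : f ∈ O) (h : ρ ⟨f, hf⟩ ≠ 0) :
    ∃ h' : f⁻¹ ∈ O, ρ ⟨f⁻¹, h'⟩ = (ρ ⟨f, hf⟩)⁻¹ := by
  obtain ⟨u, hu⟩ := hρ _ h
  have h1 : ((u⁻¹ : Oˣ) : O).1 * f = 1 := by
    have := congrArg (fun z : O => (z : F)) (Units.inv_mul u)
    rw [hu] at this
    exact this
  have h2 : f⁻¹ = ((u⁻¹ : Oˣ) : O).1 := (eq_inv_of_mul_eq_one_left h1).symm
  have h' : f⁻¹ ∈ O := by rw [h2]; exact ((u⁻¹ : Oˣ) : O).2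
  refine ⟨h', ?_⟩
  apply eq_inv_of_mul_eq_one_left
  rw [← map_mul, ← map_one ρ]
  congr 1
  apply Subtype.ext
  change f⁻¹ * f = 1
  rw [h2]; exact h1

include hρ in
theorem IsK.neg {x : Pic0 K F} {ψ : F'} (hx : IsK O ρ n x ψ) : IsK O ρ n (-x) ψ⁻¹ := by
  obtain ⟨h0, D, f, hf, u, h1, h2, h3, h4⟩ := hx
  obtain ⟨h', h5⟩ := inv_mem_of_ρ hρ hf (by rw [h4]; exact mul_ne_zero h0 (pow_ne_zero _ h2))
  refine ⟨inv_ne_zero h0, -D, f⁻¹, h', u⁻¹, ?_, inv_ne_zero h2, fun v => ?_, ?_⟩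
  · rw [h1]; rfl
  · rw [v.ord_inv, h3, AddSubgroup.coe_neg, Finsupp.neg_apply]; ring
  · rw [h5, h4, mul_inv, inv_pow]

theorem IsK.zero : IsK O ρ n (0 : Pic0 K F) 1 := by
  refine ⟨one_ne_zero, 0, 1, O.one_mem, 1, rfl, one_ne_zero, fun v => ?_, ?_⟩
  · rw [v.ord_one, AddSubgroup.coe_zero, Finsupp.zero_apply, mul_zero]
  · rw [one_pow, mul_one]; exact map_one ρ

theorem IsK.nsmul {x : Pic0 K F} {ψ : F'} (hx : IsK O ρ n x ψ) (a : ℕ) :
    IsK O ρ n (a • x) (ψ ^ a) := by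
  induction a with
  | zero => rw [zero_nsmul, pow_zero]; exact IsK.zero
  | succ a ih => rw [succ_nsmul, pow_succ]; exact ih.mul hx

include hρ in
theorem IsK.zsmul {x : Pic0 K F} {ψ : F'} (hx : IsK O ρ n x ψ) (a : ℤ) :
    IsK O ρ n (a • x) (ψ ^ a) := by
  obtain ⟨b, rfl | rfl⟩ := Int.eq_nat_or_neg a
  · rw [natCast_zsmul, zpow_natCast]; exact hx.nsmul b
  · rw [neg_smul, natCast_zsmul, zpow_neg, zpow_natCast]; exact (hx.nsmul b).neg hρ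

section Unique

variable [IsAlgClosed K] [FF.IsFF K F]

include hρ in
/-- the Kummer class of zero is trivial -/
theorem IsK.exists_pow (hn : 0 < n) {ψ : F'} (h : IsK O ρ n (0 : Pic0 K F) ψ) :
    ∃ u : F', u ≠ 0 ∧ ψ = u ^ n := by
  obtain ⟨h0, D, f, hf, u, h1, h2, h3, h4⟩ := h
  have hρf : ρ ⟨f, hf⟩ ≠ 0 := by rw [h4]; exact mul_ne_zero h0 (pow_ne_zero _ h2)
  have hf0 : f ≠ 0 := by
    rintro rfl
    exact hρf (map_zero ρ)
  obtain ⟨g, hg0, hg⟩ := (QX4.mk_eq_zero_iff D).mp h1.symm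
  obtain ⟨c, hc⟩ := QX4.exists_const_of_ord_eq_zero (K := K) (f := f / g ^ n)
    (div_ne_zero hf0 (pow_ne_zero _ hg0)) (fun v => by
      rw [div_eq_mul_inv, v.ord_mul hf0 (inv_ne_zero (pow_ne_zero _ hg0)), v.ord_inv, h3,
        hg v, FF.ord_pow]
      ring)
  obtain ⟨c', hc'⟩ := IsAlgClosed.exists_pow_nat_eq c hn
  have hfg : f = (algebraMap K F c' * g) ^ n := by
    rw [mul_pow, ← map_pow, hc', hc, div_mul_cancel₀ _ (pow_ne_zero _ hg0)]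
  set g' := algebraMap K F c' * g with hg'
  have hgO : g' ∈ O := by
    rw [← ValuationSubring.valuation_le_one_iff]
    have := (ValuationSubring.valuation_le_one_iff O f).mpr hf
    rw [hfg, map_pow] at this
    exact (pow_le_one_iff hn.ne').mp this
  have h5 : ρ ⟨f, hf⟩ = ρ ⟨g', hgO⟩ ^ n := by
    rw [← map_pow]
    congr 1
    exact Subtype.ext hfg
  refine ⟨ρ ⟨g', hgO⟩ / u, div_ne_zero ?_ h2, ?_⟩
  · intro h6
    rw [h6, zero_pow hn.ne'] at h5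
    exact hρf h5
  · rw [div_pow, ← h5, h4, mul_div_cancel_right₀ _ (pow_ne_zero _ h2)]

include hρ in
/-- the Kummer class is well defined -/
theorem IsK.unique (hn : 0 < n) {x : Pic0 K F} {ψ φ : F'} (h : IsK O ρ n x ψ)
    (h' : IsK O ρ n x φ) : ∃ u : F', u ≠ 0 ∧ ψ = φ * u ^ n := by
  have h1 := h.mul (h'.neg hρ)
  rw [add_neg_cancel] at h1
  obtain ⟨u, hu, hu'⟩ := h1.exists_pow hρ hn
  refine ⟨u, hu, ?_⟩
  rw [← hu', mul_comm, mul_assoc, inv_mul_cancel₀ h'.1, mul_one]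

theorem IsK.split_of_pow (hn : 0 < n) {x : Pic0 K F} {w : F'} (h : IsK O ρ n x (w ^ n)) :
    Split O ρ n x := by
  have hw : w ≠ 0 := by
    rintro rfl
    exact h.1 (zero_pow hn.ne')
  rw [split_iff_isK]
  have := h.congr (inv_ne_zero hw)
  rwa [← mul_pow, mul_inv_cancel₀ hw, one_pow] at this

end Unique

/-- existence of the Kummer class -/
theorem exists_isK (hscale : ∀ f : F, f ≠ 0 → ∃ (c : K) (_ : c ≠ 0) (h : c • f ∈ O),
    ρ ⟨c • f, h⟩ ≠ 0) {x : Pic0 K F} (hx : n • x = 0) : ∃ ψ, IsK O ρ n x ψ := by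
  obtain ⟨D, rfl⟩ := Pic0.mk_surjective x
  obtain ⟨f, hf0, hf⟩ := QX4.exists_ord_eq_of_nsmul_eq_zero hx
  obtain ⟨c, hc0, hc, hρc⟩ := hscale f hf0
  refine ⟨ρ ⟨c • f, hc⟩, hρc, D, c • f, hc, 1, rfl, one_ne_zero, fun v => ?_, ?_⟩
  · rw [Algebra.smul_def, v.ord_mul ((map_ne_zero _).mpr hc0) hf0,
      QX4.ord_algebraMap_eq_zero v hc0, zero_add, hf]
  · rw [one_pow, mul_one]

/-- the orders of the Kummer class of a class killed by `n`... for a representative `f`. -/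
theorem isK_of_rep {D : Divisor.degZero (K := K) (F := F)} {f : F} (hf : f ∈ O)
    (h0 : ρ ⟨f, hf⟩ ≠ 0) (h : ∀ v : Place K F, v.ord f = n * (D : Divisor K F) v) :
    IsK O ρ n (Pic0.mk D) (ρ ⟨f, hf⟩) :=
  ⟨h0, D, f, hf, 1, rfl, one_ne_zero, h, by rw [one_pow, mul_one]⟩

section Hecke

/-- A multiplicative operator `T` on functions, `τ` on classes, `T'` on the special fibre. -/
structure Compatible (O : ValuationSubring F) (ρ : O →+* F') (T : F →* F) (τ : Pic0 K F → Pic0 K F)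
    (T' : F' →* F') : Prop where
  rep : ∀ (n : ℕ) (D : Divisor.degZero (K := K) (F := F)) (f : F), f ≠ 0 →
    (∀ v : Place K F, v.ord f = n * (D : Divisor K F) v) →
      ∃ D' : Divisor.degZero (K := K) (F := F), τ (Pic0.mk D) = Pic0.mk D' ∧
        ∀ v : Place K F, v.ord (T f) = n * (D' : Divisor K F) v
  mem : ∀ (f : F) (hf : f ∈ O), ∃ h : T f ∈ O, ρ ⟨T f, h⟩ = T' (ρ ⟨f, hf⟩)

theorem map_ne_zero' (T' : F' →* F') {x : F'} (hx : x ≠ 0) : T' x ≠ 0 := by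
  intro h
  have h1 : T' (x * x⁻¹) = T' x * T' x⁻¹ := map_mul _ _ _
  rw [mul_inv_cancel₀ hx, map_one, h, zero_mul] at h1
  exact one_ne_zero h1

theorem IsK.map {T : F →* F} {τ : Pic0 K F → Pic0 K F} {T' : F' →* F'}
    (C : Compatible O ρ T τ T') {x : Pic0 K F} {ψ : F'} (hx : IsK O ρ n x ψ) :
    IsK O ρ n (τ x) (T' ψ) := by
  obtain ⟨h0, D, f, hf, u, h1, h2, h3, h4⟩ := hx
  have hf0 : f ≠ 0 := by
    rintro rfl
    rw [show (⟨0, hf⟩ : O) = 0 from rfl, map_zero] at h4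
    exact mul_ne_zero h0 (pow_ne_zero n h2) h4.symm
  obtain ⟨D', h5, h6⟩ := C.rep n D f hf0 h3
  obtain ⟨h7, h8⟩ := C.mem f hf
  refine ⟨map_ne_zero' T' h0, D', T f, h7, T' u, by rw [h1, h5], map_ne_zero' T' h2, h6, ?_⟩
  rw [h8, h4, map_mul, map_pow]

end Hecke

end Fermat.Agent.RibetE
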