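import Fermat.Agent.Star.Main

/-!
# Divisibility of the reductions of inertia-invariant functions

`M : Star.Model` (two components, `G` = inertia), `f` fixed by `G`, a unit at both components, with
divisor divisible by `n`, `n` prime to the widths of the nodes. Then the divisors of both
reductions are divisible by `n`.
-/

set_option autoImplicit false
set_option linter.unusedSectionVars false

noncomputable section

open AlgebraicCurve WithZero Module
open Fermat.Agent.RR Fermat.Agent.FF Fermat.Agent.Star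

namespace Fermat.Agent.RibetE

variable {K F k F' : Type*} [Field K] [Field F] [Algebra K F] [Field k] [Field F']
    [Algebra k F'] [IsAlgClosed K] [IsFF K F] [IsAlgClosed k] [IsFF k F']

open SemilinearAut Star.Model Star.Model.Pt

variable {M : Star.Model K F k F'} {hM : M.Good} {U : UnitData M}

/-- invariant functions have integral valuations -/
theorem exists_zpow_unit (i : Fin 2) {d : F} (hd0 : d ≠ 0) (hd : ∀ g ∈ M.G, g • d = d) :
    ∃ (m : ℤ) (u : F), u ∈ M.O i ∧ u⁻¹ ∈ M.O i ∧ u ≠ 0 ∧ d = M.pF ^ m * u := by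
  obtain ⟨c, hc0, hc1, hc2, hc3⟩ := M.scale i d hd0
  have hcfix : ∀ g ∈ M.G, baseAut g c = c := fun g hg => hc3 g hg (hd g hg)
  obtain ⟨n, hn1, hn2⟩ := M.disc c hc0 hcfix
  have hcF : algebraMap K F c ≠ 0 := (_root_.map_ne_zero _).2 hc0
  have hpn := zpow_ne_zero n (pF_ne_zero (M := M))
  refine ⟨-n, d * M.pF ^ n, ?_, ?_, mul_ne_zero hd0 hpn, ?_⟩
  · have h1 : d * M.pF ^ n = algebraMap K F (c * (M.p : K) ^ n) * (d * (algebraMap K F c)⁻¹) := by
      rw [map_mul, map_zpow₀, pF]; field_simp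
    rw [h1]; exact mul_mem (algebraMap_mem hn1 i) hc1
  · have h1 : (d * M.pF ^ n)⁻¹ =
        algebraMap K F (c * (M.p : K) ^ n)⁻¹ * (d * (algebraMap K F c)⁻¹)⁻¹ := by
      rw [map_inv₀, map_mul, map_zpow₀, pF]; field_simp
    rw [h1]; exact mul_mem (algebraMap_mem hn2 i) hc2
  · rw [zpow_neg]; field_simp

/-- **Divisibility at the nodes.** -/
theorem dvd_node {P : M.Pt} (C : Coord U hM P) (hon : ∀ i, i ∈ P.on) {f : F} (f0 : f ≠ 0)
    (hO : ∀ i, f ∈ M.O i) (hO' : ∀ i, f⁻¹ ∈ M.O i) (hfix : ∀ g ∈ M.G, g • f = f) {n : ℕ}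
    (hn : ∀ v ∈ P.tube, (n : ℤ) ∣ v.ord f) (hcop : Nat.Coprime n C.w) (i : Fin 2) :
    (n : ℤ) ∣ (P.wOn hM i).ord (M.red i f) := by
  obtain ⟨a, h, d, hh0, hh, hh', -, hd0, hdfix, hdO, hdO', hfd, ha⟩ :=
    node_dec C hon le_rfl f0 (hO 0) (hO' 0) hfix hn
  obtain ⟨m, v, hv, hv', hv0, hdv⟩ := exists_zpow_unit 1 hd0 hdfix
  have hhO := L_le_O (hM := hM) (hon 1) hh
  have hhO' := L_le_O (hM := hM) (hon 1) hh'
  have x1 := C.X_mem'
  have x2 := C.Xu_inv_mem
  have x3 := C.Xu_ne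
  have x4 := C.X_eq
  set xu := C.X * (M.pF ^ C.w)⁻¹ with hxu
  have hp0 := pF_ne_zero (M := M)
  obtain ⟨z1, z2⟩ := zpow_unit_mem x1 x2 a
  have hfin : f = M.pF ^ (C.w * a + n * m) * (xu ^ a * h * v ^ n) := by
    have h1 : C.X ^ a = M.pF ^ (C.w * a) * xu ^ a := by
      rw [x4, mul_zpow, ← zpow_mul]
    have h2 : d ^ n = M.pF ^ (n * m) * v ^ n := by
      rw [hdv, mul_pow, ← zpow_natCast (M.pF ^ m), ← zpow_mul, mul_comm m]
    rw [hfd, h1, h2, zpow_add₀ hp0]
    ring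
  have h0 : (0 : ℤ) = C.w * a + n * m := by
    refine pF_exp (hO 1) (hO' 1) f0 (mul_mem (mul_mem z1 hhO) (pow_mem hv _)) ?_ ?_
      (((by rw [zpow_zero, one_mul] : M.pF ^ (0 : ℤ) * f = f)).trans hfin)
    · rw [mul_inv, mul_inv, ← inv_pow]
      exact mul_mem (mul_mem z2 hhO') (pow_mem hv' _)
    · exact mul_ne_zero (mul_ne_zero (zpow_ne_zero _ x3) hh0) (pow_ne_zero _ hv0)
  have hna : (n : ℤ) ∣ a := by
    have hc : IsCoprime (n : ℤ) (C.w : ℤ) := Nat.isCoprime_iff_coprime.2 hcop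
    refine hc.dvd_of_dvd_mul_left ⟨-m, ?_⟩
    linear_combination -h0
  rcases fin2_cases (i := 0) (i' := 1) (by decide) i with rfl | rfl
  · have := dvd_add ha hna
    rwa [sub_add_cancel] at this
  · obtain ⟨b, rfl⟩ := hna
    -- `f = y ^ n * h` with `y = X ^ b * d`
    set y := C.X ^ b * d with hy
    have hy0 : y ≠ 0 := mul_ne_zero (zpow_ne_zero _ C.X_ne) hd0
    have hfy : f = y ^ n * h := by
      have : C.X ^ ((n : ℤ) * b) = (C.X ^ b) ^ n := by
        rw [mul_comm, zpow_mul, zpow_natCast]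
      rw [hfd, this, hy, mul_pow]; ring
    have hyn : y ^ n = f * h⁻¹ := by rw [hfy]; field_simp
    have hyn1 : y ^ n ∈ M.O 1 := by rw [hyn]; exact mul_mem (hO 1) hhO'
    have hyn2 : (y ^ n)⁻¹ ∈ M.O 1 := by
      rw [hyn, mul_inv, inv_inv]; exact mul_mem (hO' 1) hhO
    by_cases hn0 : n = 0
    · subst hn0
      rw [pow_zero, one_mul] at hfy
      rw [hfy]
      have h5 := (red_ne_zero_of_unit (hM := hM) (hon 1) hh0 hh hh').2
      rw [h5]; simp
    have hyO : y ∈ M.O 1 := by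
      rw [← ValuationSubring.valuation_le_one_iff, map_pow] at hyn1
      rw [← ValuationSubring.valuation_le_one_iff]
      exact (pow_le_one_iff hn0).1 hyn1
    have hyO' : y⁻¹ ∈ M.O 1 := by
      rw [← ValuationSubring.valuation_le_one_iff, ← inv_pow, map_pow] at hyn2
      rw [← ValuationSubring.valuation_le_one_iff]
      exact (pow_le_one_iff hn0).1 hyn2
    have hry : M.red 1 y ≠ 0 := (red_ne_zero_iff hyO).2 ⟨hy0, hyO'⟩
    obtain ⟨hrh, hrh'⟩ := red_ne_zero_of_unit (hM := hM) (hon 1) hh0 hh hh'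
    rw [hfy, red_mul (pow_mem hyO n) hhO, red_pow hyO, Place.ord_mul _ (pow_ne_zero _ hry) hrh,
      hrh', ord_pow, add_zero]
    exact dvd_mul_right _ _

/-- **Divisibility of the divisors of the reductions.** -/
theorem dvd_ord_red (hM : M.Good) (U : UnitData M) {f : F} (f0 : f ≠ 0)
    (hO : ∀ i, f ∈ M.O i) (hO' : ∀ i, f⁻¹ ∈ M.O i) (hfix : ∀ g ∈ M.G, g • f = f) {n : ℕ}
    (hn : ∀ v : Place K F, (n : ℤ) ∣ v.ord f)
    (hcop : ∀ (P : M.Pt) (C : Coord U hM P), (∀ i, i ∈ P.on) → Nat.Coprime n C.w)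
    (i : Fin 2) (w : Place k F') : (n : ℤ) ∣ w.ord (M.red i f) := by
  have hi := wOn_ptOf (hM := hM) i w
  rcases on_cases (P := M.ptOf i w) with h | h
  · obtain ⟨C⟩ := exists_coord (hM := hM) U h
    have := dvd_node C h f0 hO hO' hfix (fun v _ => hn v) (hcop _ C h) i
    rwa [hi] at this
  · have h1 : (M.ptOf i w).on = {i} := by rw [h, ptOf_i]
    have := dvd_smooth (hM := hM) h1 f0 (hO i) (hO' i) (fun v _ => hn v)
    rwa [hi] at this

/-- if `n` is prime to `E` -/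
theorem dvd_ord_red_of_coprime (hM : M.Good) (U : UnitData M) {f : F} (f0 : f ≠ 0)
    (hO : ∀ i, f ∈ M.O i) (hO' : ∀ i, f⁻¹ ∈ M.O i) (hfix : ∀ g ∈ M.G, g • f = f) {n : ℕ}
    (hn : ∀ v : Place K F, (n : ℤ) ∣ v.ord f) (hcop : Nat.Coprime n U.E)
    (i : Fin 2) (w : Place k F') : (n : ℤ) ∣ w.ord (M.red i f) :=
  dvd_ord_red hM U f0 hO hO' hfix hn
    (fun _ C _ => Nat.Coprime.coprime_dvd_right ⟨C.o, by rw [mul_comm]; exact C.o_mul.symm⟩ hcop) i w

end Fermat.Agent.RibetE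

end
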