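import Fermat.Agent.RibetE.Hecke
import Fermat.Agent.RibetE.StarN
import Fermat.Agent.S36.Descent

/-!
# The specialisation of inertia-invariant torsion classes of `J₀(m q)` at `q`

For `x ∈ J₀(m q)[n]` fixed by inertia and `ℓ ∤ m q`, the class `(T_ℓ - (ℓ + 1)) x` extends to
both components of the special fibre: it is related (`Rel`) to a class in `J₀(m)[n]` on each of them.
-/

set_option autoImplicit false
set_option linter.unusedSectionVars false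

noncomputable section

open ModularCurve HahnSeries Module AlgebraicCurve
open Fermat.Agent.GaussVal Fermat.Agent.FF Fermat.Agent.RR Fermat.Agent.TwoGauss
open Fermat.Agent.TEll Fermat.Agent.Star
open scoped Fermat.Agent.GaussVal
open Fermat.Agent.QX4 (Split)
open SemilinearAut Fermat.Agent.Star.Model Fermat.Agent.Star.Model.Pt

namespace Fermat.Agent.RibetE

/-- the algebraic numbers -/
local notation "𝕂" => AlgebraicClosure ℚ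

section TEllLemmas

variable {N ℓ : ℕ} [NeZero N] [NeZero ℓ] (hℓ : ℓ.Prime) (hℓN : ¬ ℓ ∣ N)

include hℓ hℓN in
theorem TEll_algebraMap (c : 𝕂) : TEll 𝕂 N ℓ (algebraMap 𝕂 (modularFunctionFieldBar N) c) =
    algebraMap 𝕂 (modularFunctionFieldBar N) (c ^ (ℓ + 1)) := by
  apply Subtype.ext
  rw [coe_TEll_bar N ℓ hℓ hℓN]
  change TSer 𝕂 ℓ (algebraMap 𝕂 (LaurentSeries 𝕂) c) = algebraMap 𝕂 (LaurentSeries 𝕂) (c ^ (ℓ + 1))
  rw [TSer_apply, QX4.secNorm_algebraMap]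
  have h : qExpand 𝕂 ℓ (algebraMap 𝕂 (LaurentSeries 𝕂) c) = algebraMap 𝕂 (LaurentSeries 𝕂) c := by
    rw [algebraMap_laurentSeries_eq_single, qExpand_single, mul_zero]
  rw [h, ← map_mul, pow_succ']

include hℓ hℓN in
theorem TEll_ga (σ : 𝕂 ≃ₐ[ℚ] 𝕂) (f : modularFunctionFieldBar N) :
    TEll 𝕂 N ℓ (ga N σ f) = ga N σ (TEll 𝕂 N ℓ f) := by
  apply Subtype.ext
  rw [coe_TEll_bar N ℓ hℓ hℓN, coe_ga, coe_ga, coe_TEll_bar N ℓ hℓ hℓN, coeffMap_TSer]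

end TEllLemmas

section

variable {A : ValuationSubring (AlgebraicClosure ℚ)} {q m : ℕ} [NeZero m]
  [Fact q.Prime] [CharP (IsLocalRing.ResidueField A) q]
  (hq : q.Prime) (hm : ¬ q ∣ m) (hA : A.LiesOverPrime q)
  (H3 : S18aux.DegThm (IsLocalRing.ResidueField A) m)
  {ℓ : ℕ} [NeZero ℓ] (hℓ : ℓ.Prime) (hℓN : ¬ ℓ ∣ m * q)

/-- the residue field -/
local notation "κ" => IsLocalRing.ResidueField A

/-- the model -/
local notation "𝕄" => Star.Inst.model (m := m) hq hm hA H3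

theorem compatible_i (i : Fin 2) : Compatible ((𝕄).O i) ((𝕄).ρ i) (TN (m * q) ℓ)
    (heckeOperatorBar (m * q) ⟨ℓ, hℓ⟩) (TF hq hA H3 hℓ hℓN) := by
  match i with
  | 0 => exact compatible₁ hq hm hA H3 hℓ hℓN
  | 1 => exact compatible₂ hq hm hA H3 hℓ hℓN

include hℓ hℓN in
/-- `T_ℓ f / f ^ (ℓ + 1)` is a unit at both components. -/
theorem hecke_unit {f : modularFunctionFieldBar (m * q)} (hf : f ≠ 0)
    (hfix : ∀ g ∈ (𝕄).G, g • f = f) (i : Fin 2) :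
    TEll 𝕂 (m * q) ℓ f * (f ^ (ℓ + 1))⁻¹ ∈ (𝕄).O i ∧
      (TEll 𝕂 (m * q) ℓ f * (f ^ (ℓ + 1))⁻¹)⁻¹ ∈ (𝕄).O i := by
  have := isFF_m' (m := m) H3
  obtain ⟨a, u, hu, hu', hu0, hfu⟩ := exists_zpow_unit (M := 𝕄) i hf hfix
  have hp0 := pF_ne_zero (M := 𝕄)
  have hTp : TEll 𝕂 (m * q) ℓ ((𝕄).pF ^ a) = ((𝕄).pF ^ a) ^ (ℓ + 1) := by
    have h1 : (𝕄).pF ^ a = algebraMap 𝕂 (modularFunctionFieldBar (m * q)) (((𝕄).p : 𝕂) ^ a) := by
      rw [map_zpow₀]; rfl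
    rw [h1, TEll_algebraMap hℓ hℓN, map_pow]
  have hT0 : TEll 𝕂 (m * q) ℓ u * TEll 𝕂 (m * q) ℓ u⁻¹ = 1 := by
    rw [← map_mul, mul_inv_cancel₀ hu0, map_one]
  have hTu0 : TEll 𝕂 (m * q) ℓ u ≠ 0 := left_ne_zero_of_mul_eq_one hT0
  have hTinv : TEll 𝕂 (m * q) ℓ u⁻¹ = (TEll 𝕂 (m * q) ℓ u)⁻¹ := eq_inv_of_mul_eq_one_right hT0
  obtain ⟨h1, -⟩ := (compatible_i hq hm hA H3 hℓ hℓN i).mem u hu
  obtain ⟨h2, -⟩ := (compatible_i hq hm hA H3 hℓ hℓN i).mem u⁻¹ hu'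
  have h3 : TEll 𝕂 (m * q) ℓ f * (f ^ (ℓ + 1))⁻¹ = TEll 𝕂 (m * q) ℓ u * (u⁻¹) ^ (ℓ + 1) := by
    rw [hfu, map_mul, hTp, mul_pow, inv_pow]
    have := pow_ne_zero (ℓ + 1) (zpow_ne_zero a hp0)
    field_simp
  have h4 : (TEll 𝕂 (m * q) ℓ u)⁻¹ ∈ (𝕄).O i := by
    rw [← hTinv]; exact h2
  rw [h3]
  refine ⟨mul_mem h1 (pow_mem hu' _), ?_⟩
  rw [mul_inv, inv_pow, inv_inv]
  exact mul_mem h4 (pow_mem hu _)

include hℓN in
/-- **The class `(T_ℓ - (ℓ + 1)) x` for `x` fixed by inertia**: a representative which is a unit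
with divisor divisible by `n` at both components. -/
theorem exists_good_rep [IsFF κ (modularFunctionFieldFullC κ m)] (hM : (𝕄).Good)
    (U : UnitData 𝕄) {n : ℕ} (hn : 0 < n)
    (hcop : ∀ (P : (𝕄).Pt) (C : Coord U hM P), (∀ i, i ∈ P.on) → Nat.Coprime n C.w)
    {x : JZero (m * q)} (hx : n • x = 0) (hfix : ∀ σ ∈ A.inertiaSubgroupIn ℚ, σ • x = x) :
    ∃ (D : Divisor.degZero (K := 𝕂) (F := modularFunctionFieldBar (m * q)))
      (f : modularFunctionFieldBar (m * q)), f ≠ 0 ∧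
      heckeOperatorBar (m * q) ⟨ℓ, hℓ⟩ x - (ℓ + 1) • x = Pic0.mk D ∧
      (∀ v : Place 𝕂 (modularFunctionFieldBar (m * q)), v.ord f = n * (D : Divisor _ _) v) ∧
      (∀ σ ∈ A.inertiaSubgroupIn ℚ, ga (m * q) σ f = f) ∧
      ∀ i, f ∈ (𝕄).O i ∧ f⁻¹ ∈ (𝕄).O i ∧
        ∀ w : Place κ (modularFunctionFieldFullC κ m), (n : ℤ) ∣ w.ord ((𝕄).red i f) := by
  obtain ⟨D, f, hf, hxD, ho, hI⟩ := S36desc.exists_fixed_rep (m * q) (A.inertiaSubgroupIn ℚ) hn x hx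
    hfix
  have hG : ∀ g ∈ (𝕄).G, g • f = f := by
    intro g hg
    obtain ⟨σ, hσ, rfl⟩ := Star.Inst.mem_GG.mp hg
    exact hI ⟨σ, hσ⟩
  have hσf : ∀ σ ∈ A.inertiaSubgroupIn ℚ, ga (m * q) σ f = f := fun σ hσ => hI ⟨σ, hσ⟩
  obtain ⟨D₁, h1, h2⟩ := hecke_rep (N := m * q) hℓ n D f hf ho
  have hTf0 : TEll 𝕂 (m * q) ℓ f ≠ 0 := TEll_ne_zero _ _ _ (finAlpha (m * q) ℓ) hf
  set f' := TEll 𝕂 (m * q) ℓ f * (f ^ (ℓ + 1))⁻¹ with hf'
  have hf'0 : f' ≠ 0 := mul_ne_zero hTf0 (inv_ne_zero (pow_ne_zero _ hf))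
  have hσf' : ∀ σ ∈ A.inertiaSubgroupIn ℚ, ga (m * q) σ f' = f' := by
    intro σ hσ
    rw [hf', map_mul, map_inv₀, map_pow, ← TEll_ga hℓ hℓN, hσf σ hσ]
  have hord : ∀ v : Place 𝕂 (modularFunctionFieldBar (m * q)),
      v.ord f' = n * ((D₁ - (ℓ + 1) • D : Divisor.degZero (K := 𝕂)
        (F := modularFunctionFieldBar (m * q))) : Divisor _ _) v := by
    intro v
    rw [hf', v.ord_mul hTf0 (inv_ne_zero (pow_ne_zero _ hf)), v.ord_inv, FF.ord_pow, h2, ho]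
    change _ = (n : ℤ) * (((D₁ : Divisor 𝕂 (modularFunctionFieldBar (m * q))) -
      (ℓ + 1) • (D : Divisor 𝕂 (modularFunctionFieldBar (m * q)))) v)
    rw [Finsupp.sub_apply, Finsupp.smul_apply, nsmul_eq_mul]
    push_cast
    ring
  refine ⟨D₁ - (ℓ + 1) • D, f', hf'0, ?_, hord, hσf', fun i => ?_⟩
  · rw [hxD, h1]; rfl
  · obtain ⟨h3, h4⟩ := hecke_unit hq hm hA H3 hℓ hℓN hf hG i
    refine ⟨h3, h4, fun w => ?_⟩
    refine dvd_ord_red hM U hf'0 (fun i => (hecke_unit hq hm hA H3 hℓ hℓN hf hG i).1)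
      (fun i => (hecke_unit hq hm hA H3 hℓ hℓN hf hG i).2) ?_ (fun v => ?_) hcop i w
    · intro g hg
      obtain ⟨σ, hσ, rfl⟩ := Star.Inst.mem_GG.mp hg
      exact hσf' σ hσ
    · rw [hord v]; exact dvd_mul_right _ _

theorem isUnit_of_model (i : Fin 2) (y : (𝕄).O i) (hy : (𝕄).ρ i y ≠ 0) : IsUnit y := by
  by_contra hu
  apply hy
  rw [(𝕄).ρ_eq_zero_iff, ValuationSubring.mem_nonunits_iff,
    ← ValuationSubring.valuation_lt_one_iff]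
  exact hu

include hℓN in
/-- **(E1), pointwise form**: for `x ∈ J₀(m q)[n]` fixed by inertia at `q`, the class
`(T_ℓ - (ℓ + 1)) x` specialises to `J₀(m)[n]` at both components. -/
theorem exists_rel_model [IsFF κ (modularFunctionFieldFullC κ m)] (hM : (𝕄).Good)
    (U : UnitData 𝕄)
    (H2 : genusFF 𝕂 (modularFunctionFieldBar m) ≤ genusFF κ (modularFunctionFieldFullC κ m))
    {n : ℕ} (hnq : ¬ q ∣ n)
    (hcop : ∀ (P : (𝕄).Pt) (C : Coord U hM P), (∀ i, i ∈ P.on) → Nat.Coprime n C.w)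
    {x : JZero (m * q)} (hx : n • x = 0) (hfix : ∀ σ ∈ A.inertiaSubgroupIn ℚ, σ • x = x)
    (i : Fin 2) :
    ∃ z : JZero m, n • z = 0 ∧ Rel ((𝕄).O i) ((𝕄).ρ i) (Gm hq hA H3).O (Gm hq hA H3).ρ n
      (heckeOperatorBar (m * q) ⟨ℓ, hℓ⟩ x - (ℓ + 1) • x) z := by
  have hn0 : n ≠ 0 := by rintro rfl; exact hnq (dvd_zero _)
  obtain ⟨D, f, hf0, hxD, ho, -, hr⟩ := exists_good_rep hq hm hA H3 hℓ hℓN hM U
    (Nat.pos_of_ne_zero hn0) hcop hx hfix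
  obtain ⟨h1, h2, h3⟩ := hr i
  have h4 : (𝕄).ρ i ⟨f, h1⟩ ≠ 0 := by
    rw [← Star.tred_of_mem h1]
    exact (Model.red_ne_zero_iff h1).mpr ⟨hf0, h2⟩
  have hnk : (n : κ) ≠ 0 := fun h => hnq ((CharP.cast_eq_zero_iff κ q n).mp h)
  rw [hxD]
  refine exists_rel (O := (𝕄).O i) (ρ := (𝕄).ρ i) (Gm hq hA H3) H2
    (by exact_mod_cast hn0) hnk (isK_of_rep h1 h4 ho) (fun w => ?_)
  have := h3 w
  rwa [Model.red, Star.tred_of_mem h1] at this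

end

end Fermat.Agent.RibetE
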