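import Fermat.Agent.RibetE.Fix
import Fermat.Agent.RibetE.Count
import Fermat.Agent.TwoComp.Full6
import Fermat.Agent.Cofaith.Weight
import Fermat.Agent.Cofaith.ES
import Fermat.Agent.RTD.TameGen
import Fermat.Agent.QX4.Poly

/-!
# The monodromy on the new non-Eisenstein part of `J₀(m q)` at `q`
-/

set_option autoImplicit false
set_option linter.unusedSectionVars false
set_option linter.style.haveILetI false

noncomputable section

open ModularCurve HahnSeries Module AlgebraicCurve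
open Fermat.Agent.GaussVal Fermat.Agent.FF Fermat.Agent.RR Fermat.Agent.TwoGauss
open Fermat.Agent.TEll Fermat.Agent.Star Fermat.Agent.GalRep
open scoped Fermat.Agent.GaussVal
open SemilinearAut Fermat.Agent.Star.Model Fermat.Agent.Star.Model.Pt
open Fermat.Agent.TSide (etaOp unrTors etaOp_apply)
open Fermat.Agent.QX4 (Split)

namespace Fermat.Agent.RibetE

/-- the algebraic numbers -/
local notation "𝕂" => AlgebraicClosure ℚ

section

variable {A : ValuationSubring (AlgebraicClosure ℚ)} {q m : ℕ} [NeZero m]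
  [Fact q.Prime] [CharP (IsLocalRing.ResidueField A) q]
  (hq : q.Prime) (hm : ¬ q ∣ m) (hA : A.LiesOverPrime q)

/-- the residue field -/
local notation "κ" => IsLocalRing.ResidueField A

/-- the relation at the component `i` -/
def RelI (H3 : S18aux.DegThm (IsLocalRing.ResidueField A) m) (i : Fin 2) (n : ℕ)
    (x : JZero (m * q)) (z : JZero m) : Prop :=
  Rel ((Star.Inst.model (m := m) hq hm hA H3).O i) ((Star.Inst.model (m := m) hq hm hA H3).ρ i)
    (Gm hq hA H3).O (Gm hq hA H3).ρ n x z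

theorem inclS_C (S : Set ℕ) (a : ℤ) : inclS S (MvPolynomial.C a) = ((a : ℤ) : HeckeAlg) := by
  rw [inclS, MvPolynomial.rename_C]
  exact (eq_intCast (MvPolynomial.C (R := ℤ) (σ := Nat.Primes)) a)

theorem inclS_X (S : Set ℕ) (ℓ : {ℓ : Nat.Primes // (ℓ : ℕ) ∉ S}) :
    inclS S (MvPolynomial.X ℓ) = heckeGen ℓ.1 := by
  rw [inclS, MvPolynomial.rename_X]; rfl

/-- The relations are stable under Hecke polynomials. -/
theorem relI_smul (H3 : S18aux.DegThm (IsLocalRing.ResidueField A) m) (i : Fin 2) (S : Set ℕ)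
    (hS : ∀ ℓ : ℕ, ℓ.Prime → ℓ ∣ m * q → ℓ ∈ S) {n : ℕ} (t : HeckeAlgS S) :
    ∀ (x : JZero (m * q)) (z : JZero m), RelI hq hm hA H3 i n x z →
      RelI hq hm hA H3 i n (letI := heckeModuleBar (m * q); inclS S t • x)
        (letI := heckeModuleBar m; inclS S t • z) := by
  letI i1 := heckeModuleBar (m * q)
  letI i2 := heckeModuleBar m
  haveI := isFF_m' (m := m) H3
  induction t using MvPolynomial.induction_on with
  | C a =>
    intro x z h
    rw [inclS_C, Int.cast_smul_eq_zsmul, Int.cast_smul_eq_zsmul]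
    exact Rel.zsmul (isUnit_of_model hq hm hA H3 i) (isUnit_of_ρ (Gm hq hA H3)) h a
  | add p r hp hr =>
    intro x z h
    rw [map_add, add_smul, add_smul]
    exact (hp x z h).add (hr x z h)
  | mul_X p ℓ hp =>
    intro x z h
    rw [map_mul, mul_smul, mul_smul, inclS_X]
    refine hp _ _ ?_
    rw [heckeModuleBar_heckeGen_smul (HeckeComm.heckeOperatorsCommuteBar (m * q)) ℓ.1 x,
      heckeModuleBar_heckeGen_smul (HeckeComm.heckeOperatorsCommuteBar m) ℓ.1 z]
    have hℓN : ¬ ((ℓ.1 : Nat.Primes) : ℕ) ∣ m * q := fun h => ℓ.2 (hS _ ℓ.1.2 h)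
    haveI : NeZero ((ℓ.1 : Nat.Primes) : ℕ) := ⟨ℓ.1.2.ne_zero⟩
    exact Rel.map (compatible_i hq hm hA H3 ℓ.1.2 hℓN i) (compatible_m hq hA H3 ℓ.1.2 hℓN) h

/-- toric classes in terms of the relations -/
theorem mem_TT_iff_relI [IsFF κ (modularFunctionFieldFullC κ m)]
    (H3 : S18aux.DegThm (IsLocalRing.ResidueField A) m) {n : ℕ} (hn : 0 < n) {x : JZero (m * q)} :
    x ∈ (TwoGauss.twoComp hq hm hA).TT n ↔ ∀ i, RelI hq hm hA H3 i n x 0 := by
  constructor
  · rintro ⟨h1, h2⟩ i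
    match i with
    | 0 => exact rel_zero_of_split h1
    | 1 => exact rel_zero_of_split h2
  · intro h
    exact ⟨(h 0).split (isUnit_of_ρ _) hn, (h 1).split (isUnit_of_ρ _) hn⟩

/-- the torus is stable under Hecke polynomials -/
theorem smul_mem_TT [IsFF κ (modularFunctionFieldFullC κ m)] (S : Set ℕ)
    (hS : ∀ ℓ : ℕ, ℓ.Prime → ℓ ∣ m * q → ℓ ∈ S) {n : ℕ} (hn : 0 < n) (t : HeckeAlgS S)
    {x : JZero (m * q)} (hx : x ∈ (TwoGauss.twoComp hq hm hA).TT n) :
    (letI := heckeModuleBar (m * q); inclS S t • x) ∈ (TwoGauss.twoComp hq hm hA).TT n := by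
  have H3 := GoodRed.degThm_res hq hA (NeZero.ne m) hm
  rw [mem_TT_iff_relI hq hm hA H3 hn] at hx ⊢
  intro i
  have h := relI_smul hq hm hA H3 i S hS t x 0 (hx i)
  letI i2 := heckeModuleBar m
  have h0 : inclS S t • (0 : JZero m) = 0 := smul_zero _
  rw [h0] at h
  exact h

/-- **(E1)**: for `x` of order dividing `n` fixed by inertia, and `t` killing `J₀(m)[n]`, the class
`t (T_ℓ - (ℓ + 1)) x` is toric. -/
theorem smul_etaOp_mem_TT [IsFF κ (modularFunctionFieldFullC κ m)] {n : ℕ} (hnq : ¬ q ∣ n)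
    (hcop : CopWidths (m := m) hq hm hA n) (S : Set ℕ)
    (hS : ∀ ℓ : ℕ, ℓ.Prime → ℓ ∣ m * q → ℓ ∈ S) (t : HeckeAlgS S)
    (ht : letI := heckeModuleBar m; ∀ z : JZero m, n • z = 0 → inclS S t • z = 0)
    (ℓ : Nat.Primes) (hℓ : ¬ (ℓ : ℕ) ∣ m * q) {x : JZero (m * q)} (hx : x ∈ unrTors A (m * q) n) :
    (letI := heckeModuleBar (m * q); inclS S t • etaOp (m * q) ℓ x) ∈
      (TwoGauss.twoComp hq hm hA).TT n := by
  have H3 := GoodRed.degThm_res hq hA (NeZero.ne m) hm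
  have H2 := GoodRed.genus_le_all hq hA m hm
  have hM := Star.Inst.good hq hm hA H3
  have : NeZero (ℓ : ℕ) := ⟨ℓ.2.ne_zero⟩
  have hn : 0 < n := Nat.pos_of_ne_zero (by rintro rfl; exact hnq (dvd_zero _))
  rw [mem_TT_iff_relI hq hm hA H3 hn]
  intro i
  obtain ⟨z, hz, hr⟩ := exists_rel_model hq hm hA H3 ℓ.2 hℓ hM (Star.Inst.unitData hq hm hA H3) H2
    hnq (hcop H3 hM) hx.1 hx.2 i
  have h := relI_smul hq hm hA H3 i S hS t _ z hr
  rw [ht z hz] at h
  exact h

/-- Hecke elements as endomorphisms. -/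
def actE (N : ℕ) [NeZero N] (s : HeckeAlg) : Module.End ℤ (JZero N) :=
  letI := heckeModuleBar N
  (DistribSMul.toAddMonoidHom (JZero N) s).toIntLinearMap

theorem actE_apply (N : ℕ) [NeZero N] (s : HeckeAlg) (x : JZero N) :
    actE N s x = (letI := heckeModuleBar N; s • x) := rfl

theorem actE_mul (N : ℕ) [NeZero N] (s r : HeckeAlg) : actE N (s * r) = actE N s * actE N r := by
  letI := heckeModuleBar N
  refine LinearMap.ext fun x => ?_
  exact mul_smul s r x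

theorem actE_pow (N : ℕ) [NeZero N] (s : HeckeAlg) (j : ℕ) : actE N (s ^ j) = actE N s ^ j := by
  induction j with
  | zero =>
    letI := heckeModuleBar N
    refine LinearMap.ext fun x => ?_
    rw [pow_zero, pow_zero]
    exact one_smul HeckeAlg x
  | succ j ih => rw [pow_succ, pow_succ, actE_mul, ih]

/-- Galois elements as endomorphisms. -/
def galE (N : ℕ) [NeZero N] (σ : GQ) : Module.End ℤ (JZero N) :=
  (DistribSMul.toAddMonoidHom (JZero N) σ).toIntLinearMap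

theorem galE_apply (N : ℕ) [NeZero N] (σ : GQ) (x : JZero N) : galE N σ x = σ • x := rfl

theorem actE_galE (N : ℕ) [NeZero N] (s : HeckeAlg) (σ : GQ) (x : JZero N) :
    actE N s (galE N σ x) = galE N σ (actE N s x) := by
  exact Fermat.Agent.Cofaith.heckeAlg_smul_comm N s σ x

/-- `T_ℓ - (ℓ + 1)` as a Hecke polynomial. -/
def eisS (S : Set ℕ) (ℓ : {ℓ : Nat.Primes // (ℓ : ℕ) ∉ S}) : HeckeAlgS S :=
  MvPolynomial.X ℓ - ((((ℓ.1 : ℕ) : ℤ) + 1 : ℤ) : HeckeAlgS S)

theorem eisS_smul (N : ℕ) [NeZero N] (S : Set ℕ) (ℓ : {ℓ : Nat.Primes // (ℓ : ℕ) ∉ S})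
    (x : JZero N) :
    (letI := heckeModuleBar N; inclS S (eisS S ℓ) • x) = etaOp N ℓ.1 x := by
  letI := heckeModuleBar N
  rw [etaOp_apply, eisS, map_sub, sub_smul, inclS_X, map_intCast, Int.cast_smul_eq_zsmul,
    heckeModuleBar_heckeGen_smul (HeckeComm.heckeOperatorsCommuteBar N) ℓ.1 x]
  congr 1

/-- The kernel of `T_ℓ - (ℓ + 1)` on torsion is finite. -/
theorem exists_eis_bound (N : ℕ) [NeZero N] (S : Set ℕ)
    (hS : ∀ ℓ : ℕ, ℓ.Prime → ℓ ∣ N → ℓ ∈ S) (ℓ : {ℓ : Nat.Primes // (ℓ : ℕ) ∉ S}) :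
    ∃ n₀ : ℕ, n₀ ≠ 0 ∧ ∀ n : ℕ, n ≠ 0 → ∀ x : JZero N, n • x = 0 → etaOp N ℓ.1 x = 0 →
      n₀ • x = 0 := by
  obtain ⟨u, n₀, hn₀, h⟩ := Cofaith.exists_weight N S hS ℓ (m := ((ℓ.1 : ℕ) : ℤ) + 1)
    (by rw [abs_of_nonneg (by positivity)])
  refine ⟨n₀, hn₀, fun n hn x hx h0 => ?_⟩
  rw [← h n hn x hx]
  letI := heckeModuleBar N
  have h1 : inclS S (u * (MvPolynomial.X ℓ - ((((ℓ.1 : ℕ) : ℤ) + 1 : ℤ) : HeckeAlgS S))) • x =
      inclS S u • (inclS S (eisS S ℓ) • x) := by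
    rw [map_mul, mul_smul]; rfl
  rw [h1, eisS_smul N S ℓ x, h0, smul_zero]

/-- `TT n` as a subgroup -/
def TTn (n : ℕ) (hn : 0 < n) : AddSubgroup (JZero (m * q)) :=
  haveI : IsFF 𝕂 (modularFunctionFieldBar (m * q)) := isFF_m
  TwoComp.Data.torus (TwoGauss.twoComp hq hm hA) hq.pos
    (arch_mkData hq hm hA (GoodRed.degThm_res hq hA (NeZero.ne m) hm)
      (GoodRed.genus_le_all hq hA m hm)) hn

theorem mem_TTn {n : ℕ} (hn : 0 < n) {x : JZero (m * q)} :
    x ∈ TTn hq hm hA n hn ↔ x ∈ (TwoGauss.twoComp hq hm hA).TT n := Iff.rfl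

/-- `σ x - x` is toric -/
theorem galois_sub_mem_TT {σ : GQ} (hσ : σ ∈ A.inertiaSubgroupIn ℚ) {n : ℕ} {x : JZero (m * q)}
    (hx : n • x = 0) : σ • x - x ∈ (TwoGauss.twoComp hq hm hA).TT n := by
  haveI : IsFF 𝕂 (modularFunctionFieldBar m) := isFF_m
  haveI : IsFF 𝕂 (modularFunctionFieldBar (m * q)) := isFF_m
  have hact := (act_mkData_inertia hq hm hA (GoodRed.degThm_res hq hA (NeZero.ne m) hm)
    (GoodRed.genus_le_all hq hA m hm) hσ).toAct_id
  exact ⟨TwoComp.Data.split_of_inertia₁ hq.pos hact hx, TwoComp.Data.split_of_inertia₂ hq.pos hact hx⟩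

/-- the size of the classes fixed by inertia on the `u`-nilpotent part -/
theorem card_fix_nil_le [IsFF κ (modularFunctionFieldFullC κ m)] {n : ℕ} (hnq : ¬ q ∣ n)
    (hn : 0 < n)
    (hcop : CopWidths (m := m) hq hm hA n) (S : Set ℕ)
    (hS : ∀ ℓ : ℕ, ℓ.Prime → ℓ ∣ m * q → ℓ ∈ S) (ℓ : {ℓ : Nat.Primes // (ℓ : ℕ) ∉ S})
    {n₀ : ℕ} (hn₀ : n₀ ≠ 0) (hb : ∀ x : JZero (m * q), n • x = 0 → etaOp (m * q) ℓ.1 x = 0 →
      n₀ • x = 0) (B : AddSubgroup (JZero (m * q)))
    (hBη : ∀ x ∈ B, etaOp (m * q) ℓ.1 x ∈ B) :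
    Nat.card {x : JZero (m * q) // x ∈ unrTors A (m * q) n ∧ x ∈ B} ≤
      n₀ ^ (2 * genusFF 𝕂 (modularFunctionFieldBar (m * q))) *
        (n ^ (2 * genusFF κ (modularFunctionFieldFullC κ m))) ^ 2 *
          Nat.card (TTn hq hm hA n hn ⊓ B : AddSubgroup (JZero (m * q))) := by
  classical
  haveI : IsFF 𝕂 (modularFunctionFieldBar m) := isFF_m
  haveI : IsFF 𝕂 (modularFunctionFieldBar (m * q)) := isFF_m
  have hℓN : ¬ ((ℓ.1 : Nat.Primes) : ℕ) ∣ m * q := fun h => ℓ.2 (hS _ ℓ.1.2 h)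
  have hnK : (n : 𝕂) ≠ 0 := by exact_mod_cast hn.ne'
  have hn₀K : (n₀ : 𝕂) ≠ 0 := by exact_mod_cast hn₀
  have H3 := GoodRed.degThm_res hq hA (NeZero.ne m) hm
  obtain ⟨spl, hspl1, hspl2⟩ := TSide.exists_splitting hq hm hA hnq ℓ.1 (unrTors A (m * q) n)
    (fun x hx => etaOp_mem_J0 hq hm hA hn hcop ℓ.1 hℓN hx)
  -- finiteness
  have hfin := TwoComp.Data.finite_tors (K := 𝕂) (F := modularFunctionFieldBar (m * q)) n hnK
  have hfin₀ := TwoComp.Data.finite_tors (K := 𝕂) (F := modularFunctionFieldBar (m * q)) n₀ hn₀K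
  have hfinm := TwoComp.Data.finite_tors (K := 𝕂) (F := modularFunctionFieldBar m) n hnK
  have hfinT : Finite (TTn hq hm hA n hn ⊓ B : AddSubgroup (JZero (m * q))) :=
    Set.Finite.subset (s := {x : JZero (m * q) | n • x = 0}) hfin
      (fun x hx => TwoComp.Data.TT_subset hn hx.1)
  set Y : Set (JZero (m * q)) := {x | n • x = 0 ∧ etaOp (m * q) ℓ.1 x ∈ TTn hq hm hA n hn ⊓ B}
    with hY
  have hfinY : Finite Y := Set.Finite.subset hfin (fun x hx => hx.1)
  -- first step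
  have h1 := TwoComp.natCard_le_mul (G := JZero (m * q))
    (β := {z : JZero m | n • z = 0} × {z : JZero m | n • z = 0})
    {x : JZero (m * q) | x ∈ unrTors A (m * q) n ∧ x ∈ B} Y
    (fun x => (⟨(spl ⟨x.1, x.2.1⟩).1, by
        have : n • spl ⟨x.1, x.2.1⟩ = 0 := by
          rw [← map_nsmul]
          have : n • (⟨x.1, x.2.1⟩ : unrTors A (m * q) n) = 0 := Subtype.ext x.2.1.1
          rw [this, map_zero]
        exact congrArg Prod.fst this⟩, ⟨(spl ⟨x.1, x.2.1⟩).2, by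
        have : n • spl ⟨x.1, x.2.1⟩ = 0 := by
          rw [← map_nsmul]
          have : n • (⟨x.1, x.2.1⟩ : unrTors A (m * q) n) = 0 := Subtype.ext x.2.1.1
          rw [this, map_zero]
        exact congrArg Prod.snd this⟩)) (by
      intro x y hxy
      have e1 : spl ⟨x.1, x.2.1⟩ = spl ⟨y.1, y.2.1⟩ :=
        Prod.ext (congrArg (fun z => (z.1.1 : JZero m)) hxy)
          (congrArg (fun z => (z.2.1 : JZero m)) hxy)
      have e2 : spl (⟨x.1, x.2.1⟩ - ⟨y.1, y.2.1⟩) = 0 := by rw [map_sub, e1, sub_self]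
      have e3 := hspl2 _ e2
      have e4 : ((x : JZero (m * q)) - y) ∈ B := B.sub_mem x.2.2 y.2.2
      refine ⟨?_, e3, hBη _ e4⟩
      rw [nsmul_sub, x.2.1.1, y.2.1.1, sub_zero])
  have h2 := TwoComp.natCard_le_mul (G := JZero (m * q))
    (β := (TTn hq hm hA n hn ⊓ B : AddSubgroup (JZero (m * q)))) Y
    {x : JZero (m * q) | n₀ • x = 0} (fun x => ⟨_, x.2.2⟩) (by
      intro x y hxy
      refine hb _ ?_ ?_
      · rw [nsmul_sub, x.2.1, y.2.1, sub_zero]
      · rw [map_sub, sub_eq_zero]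
        exact congrArg Subtype.val hxy)
  rw [Nat.card_prod] at h1
  have c1 : Nat.card {z : JZero m | n • z = 0} =
      n ^ (2 * genusFF κ (modularFunctionFieldFullC κ m)) := by
    have hge : genusFF 𝕂 (modularFunctionFieldBar m) =
        genusFF κ (modularFunctionFieldFullC κ m) :=
      le_antisymm (GoodRed.genus_le_all hq hA m hm) (Gm hq hA H3).genus_le
    rw [← hge]
    exact TwoComp.Data.natCard_tors (K := 𝕂) (F := modularFunctionFieldBar m) n hnK
  have c2 : Nat.card {x : JZero (m * q) | n₀ • x = 0} =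
      n₀ ^ (2 * genusFF 𝕂 (modularFunctionFieldBar (m * q))) :=
    TwoComp.Data.natCard_tors (K := 𝕂) (F := modularFunctionFieldBar (m * q)) n₀ hn₀K
  rw [c1] at h1
  rw [c2] at h2
  calc Nat.card {x : JZero (m * q) // x ∈ unrTors A (m * q) n ∧ x ∈ B} ≤ _ := h1
    _ ≤ _ := Nat.mul_le_mul_left _ h2
    _ = _ := by ring

/-- the `k`-th layer of the torus -/
def Tk (p k : ℕ) (hp : p.Prime) : AddSubgroup (JZero (m * q)) :=
  TTn hq hm hA (p ^ k) (pow_pos hp.pos k)

theorem TT_eq_zero_of_empty [IsFF κ (modularFunctionFieldFullC κ m)]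
    (T : (TwoGauss.twoComp hq hm hA).NodeSet) (hT : ¬ T.Nd.Nonempty) {n : ℕ} (hnq : ¬ q ∣ n)
    {x : JZero (m * q)} (hx : x ∈ (TwoGauss.twoComp hq hm hA).TT n) : x = 0 := by
  haveI : IsFF 𝕂 (modularFunctionFieldBar m) := isFF_m
  haveI : IsFF 𝕂 (modularFunctionFieldBar (m * q)) := isFF_m
  have hn : 0 < n := Nat.pos_of_ne_zero (by rintro rfl; exact hnq (dvd_zero _))
  have hnk : (n : κ) ≠ 0 := fun h => hnq ((CharP.cast_eq_zero_iff κ q n).mp h)
  have arch := arch_mkData hq hm hA (GoodRed.degThm_res hq hA (NeZero.ne m) hm)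
      (GoodRed.genus_le_all hq hA m hm)
  obtain ⟨E, φ, rfl, h⟩ := TwoComp.Data.exists_tor (D := TwoGauss.twoComp hq hm hA) hq.pos arch hn
    hx.1 hx.2
  obtain ⟨N₃, h3⟩ := T.exists_isGlue hq.two_le
  obtain ⟨ζ, hζ, h4⟩ := h3 n hn _ φ h
  obtain ⟨ζ', hζ', h5⟩ := h3 n hn _ 1 (TwoComp.Data.Tor.one n)
  have h6 := TwoComp.Data.mk_eq_of_glue (E := (0 : Divisor.degZero (K := 𝕂)
    (F := modularFunctionFieldBar (m * q)))) (E' := E) (T := T) hq.two_le arch hnk
    (TwoComp.Data.Tor.one n) h ⟨N₃, h5⟩ ⟨N₃, h4⟩ (fun s hs => (hT ⟨s, hs⟩).elim)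
  exact h6

/-- **The monodromy on the `u`-periodic part.** -/
theorem exists_galois_sub [IsFF κ (modularFunctionFieldFullC κ m)] {p : ℕ} (hp : p.Prime)
    (hpq : p ≠ q) (hcop : ∀ k, CopWidths (m := m) hq hm hA (p ^ k)) (S : Set ℕ)
    (hS : ∀ ℓ : ℕ, ℓ.Prime → ℓ ∣ m * q → ℓ ∈ S) (t : HeckeAlgS S)
    (ht : letI := heckeModuleBar m; ∀ (k : ℕ) (z : JZero m), p ^ k • z = 0 → inclS S t • z = 0)
    (ℓ : {ℓ : Nat.Primes // (ℓ : ℕ) ∉ S}) {σ : GQ} (hσI : σ ∈ A.inertiaSubgroupIn ℚ)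
    (hσ : ∀ (k : ℕ) (x : JZero (m * q)), p ^ k • x = 0 → σ • x = x →
      ∀ τ ∈ A.inertiaSubgroupIn ℚ, τ • x = x) (k : ℕ) {x : JZero (m * q)} (hx : p ^ k • x = 0)
    (hper : x ∈ perU (actE (m * q) (inclS S (t * eisS S ℓ)))) (hσx : σ • x = x) :
    ∃ y : JZero (m * q), p ^ k • y = 0 ∧ σ • y - y = x := by
  haveI : IsFF 𝕂 (modularFunctionFieldBar m) := isFF_m
  haveI : IsFF 𝕂 (modularFunctionFieldBar (m * q)) := isFF_m
  have hnq : ∀ k, ¬ q ∣ p ^ k := fun k h =>
    hpq ((Nat.prime_dvd_prime_iff_eq hq hp).mp (hq.dvd_of_dvd_pow h)).symm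
  have hpos : ∀ k, 0 < p ^ k := fun k => pow_pos hp.pos k
  have hnK : ∀ k, ((p ^ k : ℕ) : 𝕂) ≠ 0 := fun k => by exact_mod_cast (hpos k).ne'
  have hnk : ∀ k, ((p ^ k : ℕ) : κ) ≠ 0 := fun k h => hnq k ((CharP.cast_eq_zero_iff κ q _).mp h)
  have arch := arch_mkData hq hm hA (GoodRed.degThm_res hq hA (NeZero.ne m) hm)
      (GoodRed.genus_le_all hq hA m hm)
  have hℓN : ¬ ((ℓ.1 : Nat.Primes) : ℕ) ∣ m * q := fun h => ℓ.2 (hS _ ℓ.1.2 h)
  set u := actE (m * q) (inclS S (t * eisS S ℓ)) with hu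
  -- `u` on classes fixed by inertia
  have hE : ∀ k, ∀ x : JZero (m * q), p ^ k • x = 0 → σ • x = x →
      u x ∈ (TwoGauss.twoComp hq hm hA).TT (p ^ k) := by
    intro k x hx hσx
    have h1 := smul_etaOp_mem_TT hq hm hA (hnq k) (hcop k) S hS t (ht k) ℓ.1 hℓN
      (x := x) ⟨hx, hσ k x hx hσx⟩
    have e : actE (m * q) (inclS S (eisS S ℓ)) x = etaOp (m * q) ℓ.1 x :=
      eisS_smul (m * q) S ℓ x
    rw [hu, map_mul, actE_mul, Module.End.mul_apply, e]
    exact h1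
  obtain ⟨T⟩ := (TwoGauss.twoComp hq hm hA).nonempty_nodeSet hq.two_le
  by_cases hNd : T.Nd.Nonempty
  swap
  · -- no nodes
    obtain ⟨N, hN, hxN⟩ := hper
    have h6 : ∀ M : ℕ, σ • ((u ^ M) x) = (u ^ M) x := fun M => by
      have : u ^ M = actE (m * q) ((inclS S (t * eisS S ℓ)) ^ M) := (actE_pow _ _ _).symm
      rw [this]
      have h := actE_galE (m * q) ((inclS S (t * eisS S ℓ)) ^ M) σ x
      rw [galE_apply, galE_apply, hσx] at h
      exact h.symm
    have h7 : p ^ k • ((u ^ (N - 1)) x) = 0 := by rw [← map_nsmul, hx, map_zero]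
    have h8 := TT_eq_zero_of_empty hq hm hA T hNd (hnq k) (hE k _ h7 (h6 _))
    rw [← Module.End.mul_apply, ← pow_succ', Nat.sub_add_cancel hN, hxN] at h8
    refine ⟨0, smul_zero _, ?_⟩
    have e0 : σ • (0 : JZero (m * q)) = 0 := map_zero (galE (m * q) σ)
    rw [h8, e0, sub_zero]
  · obtain ⟨n₀, hn₀, hb⟩ := exists_eis_bound (m * q) S hS ℓ
    have hgen : genusFF 𝕂 (modularFunctionFieldBar (m * q)) = (T.Nd.card - 1) +
        2 * genusFF κ (modularFunctionFieldFullC κ m) := by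
      have h1 := T.genus_eq hq.two_le
      have h2 : 1 ≤ T.Nd.card := Finset.card_pos.mpr hNd
      omega
    refine mono_abstract hp u (galE (m * q) σ) (fun k => Tk hq hm hA p k hp)
      (g := genusFF 𝕂 (modularFunctionFieldBar (m * q))) (t := T.Nd.card - 1)
      (g' := genusFF κ (modularFunctionFieldFullC κ m))
      (C := n₀ ^ (2 * genusFF 𝕂 (modularFunctionFieldBar (m * q)))) hgen
      (fun x => actE_galE _ _ _ _)
      (fun k => ?_) (fun k x hx => ?_) (fun k x hx => ?_) (fun k x hx => ?_) (fun k => ?_)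
      (fun k x hx => ?_) (fun k x hx h0 => ?_) (fun k x hx => ?_) (fun k x hx => ?_)
      (fun k x hx hσx => ?_) (fun k => ?_) k (x := x) hx hper hσx
    · -- card
      have h1 := TwoComp.Data.natCard_tors (K := 𝕂) (F := modularFunctionFieldBar (m * q))
        (p ^ k) (hnK k)
      have h2 : Nat.card (torU (JZero (m * q)) p k) =
          Nat.card {x : JZero (m * q) | p ^ k • x = 0} := rfl
      rw [h2]
      refine h1.trans ?_
      rw [← pow_mul]
      congr 1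
      ring
    · -- divisible
      exact (S27.pic0_torsion_divisible 𝕂 (modularFunctionFieldBar (m * q)) p
        (by exact_mod_cast hp.ne_zero)).2 x
    · exact TwoComp.Data.TT_subset (hpos k) hx
    · exact smul_mem_TT hq hm hA S hS (hpos k) (t * eisS S ℓ) hx
    · have h1 := TwoComp.Data.natCard_TT (D := TwoGauss.twoComp hq hm hA) hq.two_le arch T (hnK k)
        (hnk k) hNd
      refine Eq.trans ?_ (h1.trans ?_)
      · rfl
      · rw [← pow_mul]
        congr 1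
        ring
    · obtain ⟨y, hy, hyx⟩ := TwoComp.Data.exists_nsmul_eq (D := TwoGauss.twoComp hq hm hA)
        (n := p ^ k) (m := p) hq.two_le arch (hnK k) (hnk k) (by exact_mod_cast hp.ne_zero)
        (by simpa using hnk 1) hx
      exact ⟨y, hy, hyx⟩
    · exact TwoComp.Data.mem_TT_of_nsmul_eq_zero (D := TwoGauss.twoComp hq hm hA)
        (n := p ^ k) (m := p) hq.two_le arch (hnK k) (hnk k) (by exact_mod_cast hp.ne_zero)
        (by simpa using hnk 1) hx h0
    · exact TwoComp.Data.TT_subset_mul (D := TwoGauss.twoComp hq hm hA) (n := p ^ k) (m := p)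
        hq.pos arch (hpos k) hx
    · exact galois_sub_mem_TT hq hm hA hσI hx
    · exact hE k x hx hσx
    · have h1 := card_fix_nil_le hq hm hA (hnq k) (hpos k) (hcop k) S hS ℓ hn₀
        (fun x hx h0 => hb (p ^ k) (hpos k).ne' x hx h0) (nilU u) (fun x hx => ?_)
      · have h2 : Nat.card {x : JZero (m * q) // x ∈ torU (JZero (m * q)) p k ⊓ nilU u ∧
            galE (m * q) σ x = x} ≤
            Nat.card {x : JZero (m * q) // x ∈ unrTors A (m * q) (p ^ k) ∧ x ∈ nilU u} := by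
          have hfin : Finite {x : JZero (m * q) // x ∈ unrTors A (m * q) (p ^ k) ∧ x ∈ nilU u} :=
            Set.Finite.subset (s := {x : JZero (m * q) | p ^ k • x = 0})
              (TwoComp.Data.finite_tors (K := 𝕂) (F := modularFunctionFieldBar (m * q)) _ (hnK k))
              (fun x hx => hx.1.1)
          exact Nat.card_le_card_of_injective
            (fun x => (⟨x.1, ⟨x.2.1.1, hσ k x.1 x.2.1.1 x.2.2⟩, x.2.1.2⟩ :
              {x : JZero (m * q) // x ∈ unrTors A (m * q) (p ^ k) ∧ x ∈ nilU u}))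
            (fun x y h => Subtype.ext (congrArg (fun z : {x : JZero (m * q) //
              x ∈ unrTors A (m * q) (p ^ k) ∧ x ∈ nilU u} => z.1) h))
        refine h2.trans (h1.trans (le_of_eq ?_))
        rw [← pow_mul, ← pow_mul]
        congr 2
        congr 1
        ring
      · -- `nilU u` is stable under `T_ℓ - (ℓ + 1)`
        obtain ⟨N, hN⟩ := hx
        refine ⟨N, ?_⟩
        have h3 : etaOp (m * q) ℓ.1 x = actE (m * q) (inclS S (eisS S ℓ)) x :=
          (eisS_smul (m * q) S ℓ x).symm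
        have h4 : u ^ N = actE (m * q) ((inclS S (t * eisS S ℓ)) ^ N) := (actE_pow _ _ _).symm
        rw [h4] at hN ⊢
        rw [h3, ← Module.End.mul_apply, ← actE_mul,
          mul_comm ((inclS S (t * eisS S ℓ)) ^ N) (inclS S (eisS S ℓ)), actE_mul,
          Module.End.mul_apply, hN, map_zero]

end

end Fermat.Agent.RibetE
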