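import Fermat.Agent.S18.Kummer
import Fermat.Agent.S27.Export
import Fermat.Agent.Deuring.DivLemmas

/-!
# Surjectivity of the reduction on torsion, in Kummer form

If the genus does not drop, every class of `F'ˣ / F'ˣⁿ` with divisor divisible by `n` (`n` prime to
the residue characteristic) is the reduction of a function with divisor divisible by `n`.
-/

set_option autoImplicit false
set_option linter.unusedSectionVars false

noncomputable section

open AlgebraicCurve Module
open Fermat.Agent.RR Fermat.Agent.FF Fermat.Agent.Deuring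

namespace Fermat.Agent.RibetE

variable {K F k F' : Type*} [Field K] [Field F] [Algebra K F] [Field k] [Field F']
    [Algebra k F'] [IsAlgClosed K] [IsFF K F] [IsAlgClosed k] [IsFF k F']

attribute [local instance] nonempty_place finiteResidue

section Pic

variable {G : GaussData K F k F'}

/-- the reduction of degree zero divisors -/
def rDeg (R : RedMap G) :
    Divisor.degZero (K := K) (F := F) →+ Divisor.degZero (K := k) (F := F') :=
  (R.r.domRestrict (Divisor.degZero (K := K) (F := F))).codRestrict _ (fun D => by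
    rw [Divisor.mem_degZero, AddMonoidHom.domRestrict_apply, R.degree_r]
    exact Divisor.mem_degZero.mp D.2)

theorem coe_rDeg (R : RedMap G) (D : Divisor.degZero (K := K) (F := F)) :
    (rDeg R D : Divisor k F') = R.r (D : Divisor K F) := rfl

/-- the reduction on `Pic⁰` -/
def rPic (R : RedMap G) : Pic0 K F →+ Pic0 k F' :=
  QuotientAddGroup.map _ _ (rDeg R) (by
    rintro ⟨D, hD0⟩ hD
    rw [AddSubgroup.mem_comap, AddSubgroup.mem_addSubgroupOf]
    rw [AddSubgroup.mem_addSubgroupOf] at hD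
    obtain ⟨f, hf0, hfD⟩ := Deuring.isPrincipal_iff.mp hD
    obtain ⟨c, hc, h, h0⟩ := G.exists_scale hf0
    change Divisor.IsPrincipal (R.r D)
    have hfD' : D = div f := hfD
    rw [hfD', ← Deuring.div_smul hc, R.r_div _ h h0]
    exact Deuring.isPrincipal_div h0)

theorem rPic_mk (R : RedMap G) (D : Divisor.degZero (K := K) (F := F)) :
    rPic R (Pic0.mk D) = Pic0.mk (rDeg R D) := rfl

theorem exists_of_nsmul_mk {n : ℕ} {D : Divisor.degZero (K := K) (F := F)}
    (h : n • Pic0.mk D = 0) :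
    ∃ f : F, f ≠ 0 ∧ ∀ v : Place K F, v.ord f = n * (D : Divisor K F) v := by
  have h1 : Pic0.mk (n • D) = 0 := by
    rw [← h]; rfl
  obtain ⟨f, hf, hD⟩ := AddSubgroup.mem_addSubgroupOf.mp ((QuotientAddGroup.eq_zero_iff _).mp h1)
  refine ⟨f, hf, fun v => ?_⟩
  rw [← hD v]
  change (n • (D : Divisor K F)) v = _
  rw [Finsupp.smul_apply, nsmul_eq_mul]

theorem mk_eq_zero_iff' (D : Divisor.degZero (K := K) (F := F)) :
    Pic0.mk D = 0 ↔ Divisor.IsPrincipal (D : Divisor K F) :=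
  (QuotientAddGroup.eq_zero_iff _).trans AddSubgroup.mem_addSubgroupOf

theorem exists_scale_unit (G : GaussData K F k F') {f : F} (hf : f ≠ 0) :
    ∃ (g : F) (hg : g ∈ G.O), G.ρ ⟨g, hg⟩ ≠ 0 ∧ g ≠ 0 ∧
      ∀ v : Place K F, v.ord g = v.ord f := by
  obtain ⟨c, hc0, hc, hρc⟩ := G.exists_scale hf
  refine ⟨c • f, hc, hρc, smul_ne_zero hc0 hf, fun v => ?_⟩
  rw [Algebra.smul_def, v.ord_mul ((map_ne_zero _).mpr hc0) hf, FF.ord_algebraMap, zero_add]

/-- the reduction is injective on torsion -/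
theorem rPic_injective (R : RedMap G) (TK : S18aux.TorsKummer G) {n : ℕ} (hn : (n : k) ≠ 0)
    {x : Pic0 K F} (hx : n • x = 0) (h0 : rPic R x = 0) : x = 0 := by
  have hn0 : n ≠ 0 := by rintro rfl; exact hn Nat.cast_zero
  have hnZ : (n : ℤ) ≠ 0 := by exact_mod_cast hn0
  obtain ⟨D, rfl⟩ := Pic0.mk_surjective x
  obtain ⟨f, hf0, hf⟩ := exists_of_nsmul_mk hx
  obtain ⟨g, hg, hρ, hg0, hgf⟩ := exists_scale_unit G hf0
  rw [rPic_mk, mk_eq_zero_iff'] at h0
  obtain ⟨h, hh0, hh⟩ := Deuring.isPrincipal_iff.mp h0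
  rw [coe_rDeg] at hh
  have h1 : n • (D : Divisor K F) = div g := by
    ext v
    rw [Finsupp.smul_apply, div_apply, hgf v, hf v, nsmul_eq_mul]
  have h2 : (div (G.ρ ⟨g, hg⟩) : Divisor k F') = div (h ^ n) := by
    rw [Deuring.div_pow, ← hh, ← map_nsmul, h1, R.r_div g hg hρ]
  obtain ⟨c, hc0, hc⟩ := S18aux.exists_const_mul (K := k) hρ (pow_ne_zero n hh0) (fun w => by
    have := DFunLike.congr_fun h2 w
    rwa [div_apply, div_apply] at this)
  obtain ⟨c', hc'⟩ := IsAlgClosed.exists_pow_nat_eq c (Nat.pos_of_ne_zero hn0)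
  have hc'0 : c' ≠ 0 := by
    rintro rfl
    rw [zero_pow hn0] at hc'
    exact hc0 hc'.symm
  rw [mk_eq_zero_iff']
  exact TK n _ g hg (algebraMap k F' c' * h) hn (fun v => by rw [hgf v, hf v])
    (mul_ne_zero ((map_ne_zero _).mpr hc'0) hh0) (by rw [hc, mul_pow, ← map_pow, hc'])

/-- the reduction is surjective on torsion -/
theorem rPic_surjective (R : RedMap G) (TK : S18aux.TorsKummer G)
    (hg : genusFF K F ≤ genusFF k F') {n : ℕ} (hnK : (n : K) ≠ 0) (hn : (n : k) ≠ 0)
    {y : Pic0 k F'} (hy : n • y = 0) : ∃ x : Pic0 K F, n • x = 0 ∧ rPic R x = y := by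
  have hge : genusFF K F = genusFF k F' := le_antisymm hg G.genus_le
  have hmem : ∀ x : Pic0.torsion K F n, rPic R (x : Pic0 K F) ∈ Pic0.torsion k F' n := by
    intro x
    have := x.2
    rw [Pic0.mem_torsion, natCast_zsmul] at this ⊢
    rw [← map_nsmul, this, map_zero]
  let Θ : Pic0.torsion K F n → Pic0.torsion k F' n := fun x => ⟨rPic R x, hmem x⟩
  have hinj : Function.Injective Θ := by
    intro x x' hxx
    have h1 : rPic R ((x : Pic0 K F) - x') = 0 := by
      rw [map_sub, sub_eq_zero]; exact congrArg Subtype.val hxx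
    have hx1 := x.2
    have hx2 := x'.2
    rw [Pic0.mem_torsion, natCast_zsmul] at hx1 hx2
    have h2 := rPic_injective R TK hn (x := (x : Pic0 K F) - x') (by
      rw [nsmul_sub, hx1, hx2, sub_zero]) h1
    exact Subtype.ext (sub_eq_zero.mp h2)
  have := S27.finite_pic0_torsion K F n hnK
  have := S27.finite_pic0_torsion k F' n hn
  have hcard : Nat.card (Pic0.torsion K F n) = Nat.card (Pic0.torsion k F' n) := by
    rw [(S27.pic0_torsion_divisible K F n hnK).1, (S27.pic0_torsion_divisible k F' n hn).1, hge]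
  have hsurj := ((Nat.bijective_iff_injective_and_card Θ).mpr ⟨hinj, hcard⟩).2
  obtain ⟨⟨x, hx⟩, hxy⟩ := hsurj ⟨y, by rw [Pic0.mem_torsion, natCast_zsmul]; exact hy⟩
  rw [Pic0.mem_torsion, natCast_zsmul] at hx
  exact ⟨x, hx, congrArg Subtype.val hxy⟩

end Pic

/-- **Kummer surjectivity of the reduction.** -/
theorem exists_kummer_lift (G : GaussData K F k F') (hg : genusFF K F ≤ genusFF k F') {n : ℕ}
    (hnK : (n : K) ≠ 0) (hn : (n : k) ≠ 0) {ψ : F'} (hψ0 : ψ ≠ 0)
    (hψ : ∀ w : Place k F', (n : ℤ) ∣ w.ord ψ) :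
    ∃ (E : Divisor.degZero (K := K) (F := F)) (g : F) (hg : g ∈ G.O) (h : F'), h ≠ 0 ∧
      G.ρ ⟨g, hg⟩ ≠ 0 ∧ (∀ v : Place K F, v.ord g = n * (E : Divisor K F) v) ∧
      ψ = G.ρ ⟨g, hg⟩ * h ^ n := by
  have hn0 : n ≠ 0 := by rintro rfl; exact hn Nat.cast_zero
  have hnZ : (n : ℤ) ≠ 0 := by exact_mod_cast hn0
  obtain ⟨R, _⟩ := G.exists_redMap_of_le hg
  have TK := S18aux.torsKummer_of_genus_le G hg
  -- the divisor `div ψ / n`
  set E' : Divisor k F' := (div ψ : Divisor k F').mapRange (fun z => z / (n : ℤ)) (Int.zero_ediv _)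
    with hE'
  have hE'n : n • E' = div ψ := by
    ext w
    rw [Finsupp.smul_apply, Finsupp.mapRange_apply, div_apply, nsmul_eq_mul]
    exact Int.mul_ediv_cancel' (hψ w)
  have hE'0 : Divisor.degree E' = 0 := by
    have h8 := congrArg (Divisor.degree (K := k) (F := F')) hE'n
    rw [map_nsmul, degree_div, nsmul_eq_mul] at h8
    exact (mul_eq_zero.mp h8).resolve_left hnZ
  set y : Pic0 k F' := Pic0.mk ⟨E', Divisor.mem_degZero.mpr hE'0⟩ with hy
  have hny : n • y = 0 := by
    have h1 : n • y = Pic0.mk (n • (⟨E', Divisor.mem_degZero.mpr hE'0⟩ :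
      Divisor.degZero (K := k) (F := F'))) := rfl
    rw [h1, mk_eq_zero_iff']
    change Divisor.IsPrincipal (n • E')
    rw [hE'n]
    exact Deuring.isPrincipal_div hψ0
  obtain ⟨x, hx, hxy⟩ := rPic_surjective R TK hg hnK hn hny
  obtain ⟨E, rfl⟩ := Pic0.mk_surjective x
  obtain ⟨f, hf0, hf⟩ := exists_of_nsmul_mk hx
  obtain ⟨g, hgO, hρ, hg0, hgf⟩ := exists_scale_unit G hf0
  rw [rPic_mk, hy] at hxy
  have hdiff : Divisor.IsPrincipal (E' - R.r (E : Divisor K F)) := by
    have h1 : Pic0.mk ((⟨E', Divisor.mem_degZero.mpr hE'0⟩ :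
      Divisor.degZero (K := k) (F := F')) - rDeg R E) = 0 := by
      have : Pic0.mk ((⟨E', Divisor.mem_degZero.mpr hE'0⟩ :
        Divisor.degZero (K := k) (F := F')) - rDeg R E) =
          Pic0.mk ⟨E', Divisor.mem_degZero.mpr hE'0⟩ - Pic0.mk (rDeg R E) := rfl
      rw [this, hxy, sub_self]
    exact (mk_eq_zero_iff' _).mp h1
  obtain ⟨h, hh0, hh⟩ := Deuring.isPrincipal_iff.mp hdiff
  have h1 : n • (E : Divisor K F) = div g := by
    ext v
    rw [Finsupp.smul_apply, div_apply, hgf v, hf v, nsmul_eq_mul]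
  have h2 : (div ψ : Divisor k F') = div (G.ρ ⟨g, hgO⟩) + div (h ^ n) := by
    rw [Deuring.div_pow, ← hh, ← R.r_div g hgO hρ, ← h1, map_nsmul, smul_sub, hE'n]
    abel
  obtain ⟨c, hc0, hc⟩ := S18aux.exists_const_mul (K := k) hψ0
    (mul_ne_zero hρ (pow_ne_zero n hh0)) (fun w => by
    have := DFunLike.congr_fun h2 w
    rw [Finsupp.add_apply, div_apply, div_apply, div_apply] at this
    rw [this, w.ord_mul hρ (pow_ne_zero n hh0)])
  obtain ⟨c', hc'⟩ := IsAlgClosed.exists_pow_nat_eq c (Nat.pos_of_ne_zero hn0)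
  have hc'0 : c' ≠ 0 := by
    rintro rfl
    rw [zero_pow hn0] at hc'
    exact hc0 hc'.symm
  refine ⟨E, g, hgO, algebraMap k F' c' * h, mul_ne_zero ((map_ne_zero _).mpr hc'0) hh0, hρ,
    fun v => by rw [hgf v, hf v], ?_⟩
  rw [hc, mul_pow, ← map_pow, hc']
  ring

end Fermat.Agent.RibetE
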