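import Fermat.Agent.RibetE.Kum
import Fermat.Agent.RibetE.Surj

/-!
# The relation between classes upstairs and classes of the good reduction level

`Rel x z`: the Kummer class of the reduction of `x` is that of `z`. It is the graph of an additive
Hecke-equivariant map from the classes whose Kummer class has divisor divisible by `n`.
-/

set_option autoImplicit false
set_option linter.unusedSectionVars false

noncomputable section

open AlgebraicCurve Module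
open Fermat.Agent.QX4 (Split)
open Fermat.Agent.RR Fermat.Agent.FF Fermat.Agent.Deuring

namespace Fermat.Agent.RibetE

variable {K F Fm F' : Type*} [Field K] [Field F] [Algebra K F] [Field Fm] [Algebra K Fm] [Field F']

/-- `x` and `z` have the same Kummer class on the special fibre. -/
def Rel (O : ValuationSubring F) (ρ : O →+* F') (Om : ValuationSubring Fm) (ρm : Om →+* F')
    (n : ℕ) (x : Pic0 K F) (z : Pic0 K Fm) : Prop :=
  ∃ ψ : F', IsK O ρ n x ψ ∧ IsK Om ρm n z ψ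

variable {O : ValuationSubring F} {ρ : O →+* F'} {Om : ValuationSubring Fm} {ρm : Om →+* F'}
  {n : ℕ}

theorem Rel.zero : Rel O ρ Om ρm n (0 : Pic0 K F) (0 : Pic0 K Fm) := ⟨1, IsK.zero, IsK.zero⟩

theorem Rel.add {x y : Pic0 K F} {z w : Pic0 K Fm} (h : Rel O ρ Om ρm n x z)
    (h' : Rel O ρ Om ρm n y w) : Rel O ρ Om ρm n (x + y) (z + w) := by
  obtain ⟨ψ, h1, h2⟩ := h
  obtain ⟨φ, h3, h4⟩ := h'
  exact ⟨ψ * φ, h1.mul h3, h2.mul h4⟩

variable (hρ : ∀ y : O, ρ y ≠ 0 → IsUnit y) (hρm : ∀ y : Om, ρm y ≠ 0 → IsUnit y)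

include hρ hρm in
theorem Rel.neg {x : Pic0 K F} {z : Pic0 K Fm} (h : Rel O ρ Om ρm n x z) :
    Rel O ρ Om ρm n (-x) (-z) := by
  obtain ⟨ψ, h1, h2⟩ := h
  exact ⟨ψ⁻¹, h1.neg hρ, h2.neg hρm⟩

include hρ hρm in
theorem Rel.sub {x y : Pic0 K F} {z w : Pic0 K Fm} (h : Rel O ρ Om ρm n x z)
    (h' : Rel O ρ Om ρm n y w) : Rel O ρ Om ρm n (x - y) (z - w) := by
  rw [sub_eq_add_neg, sub_eq_add_neg]
  exact h.add (h'.neg hρ hρm)

include hρ hρm in
theorem Rel.zsmul {x : Pic0 K F} {z : Pic0 K Fm} (h : Rel O ρ Om ρm n x z) (a : ℤ) :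
    Rel O ρ Om ρm n (a • x) (a • z) := by
  obtain ⟨ψ, h1, h2⟩ := h
  exact ⟨ψ ^ a, h1.zsmul hρ a, h2.zsmul hρm a⟩

theorem Rel.map {T : F →* F} {τ : Pic0 K F → Pic0 K F} {T' : F' →* F'}
    (C : Compatible O ρ T τ T') {Tm : Fm →* Fm} {τm : Pic0 K Fm → Pic0 K Fm}
    (Cm : Compatible Om ρm Tm τm T') {x : Pic0 K F} {z : Pic0 K Fm}
    (h : Rel O ρ Om ρm n x z) : Rel O ρ Om ρm n (τ x) (τm z) := by
  obtain ⟨ψ, h1, h2⟩ := h
  exact ⟨T' ψ, h1.map C, h2.map Cm⟩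

include hρm in
theorem Rel.split [IsAlgClosed K] [IsFF K F] [IsFF K Fm] (hn : 0 < n) {x : Pic0 K F}
    (h : Rel O ρ Om ρm n x (0 : Pic0 K Fm)) : Split O ρ n x := by
  obtain ⟨ψ, h1, h2⟩ := h
  obtain ⟨u, -, rfl⟩ := h2.exists_pow hρm hn
  exact h1.split_of_pow hn

theorem rel_zero_of_split {x : Pic0 K F} (h : Split O ρ n x) :
    Rel O ρ Om ρm n x (0 : Pic0 K Fm) := ⟨1, split_iff_isK.mp h, IsK.zero⟩

section Gauss

variable {k : Type*} [Field k] [Algebra k F'] [IsAlgClosed K] [IsAlgClosed k] [IsFF K F]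
  [IsFF K Fm] [IsFF k F'] (G : GaussData K Fm k F')

theorem isUnit_of_ρ (G : GaussData K Fm k F') (y : G.O) (hy : G.ρ y ≠ 0) : IsUnit y := by
  by_contra hu
  apply hy
  rw [G.ρ_eq_zero_iff, ValuationSubring.mem_nonunits_iff, ← ValuationSubring.valuation_lt_one_iff]
  exact hu

/-- the Kummer class determines the class at the good level. -/
theorem eq_zero_of_isK (TK : S18aux.TorsKummer G) (hn : (n : k) ≠ 0) {z : Pic0 K Fm}
    (h : IsK G.O G.ρ n z 1) : z = 0 := by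
  obtain ⟨h0, D, f, hf, u, rfl, h2, h3, h4⟩ := h
  rw [mk_eq_zero_iff']
  exact TK n _ f hf u hn (fun v => (h3 v).symm) h2 (by rw [h4, one_mul])

include hρ in
/-- `Rel` is functional. -/
theorem Rel.unique (TK : S18aux.TorsKummer G) (hn : (n : k) ≠ 0) {x : Pic0 K F}
    {z w : Pic0 K Fm} (h : Rel O ρ G.O G.ρ n x z) (h' : Rel O ρ G.O G.ρ n x w) : z = w := by
  have hn0 : 0 < n := Nat.pos_of_ne_zero (by rintro rfl; exact hn Nat.cast_zero)
  obtain ⟨ψ, h1, h2⟩ := h.sub hρ (isUnit_of_ρ G) h'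
  rw [sub_self] at h1
  obtain ⟨u, hu, rfl⟩ := h1.exists_pow hρ hn0
  have h3 := h2.congr (inv_ne_zero hu)
  rw [← mul_pow, mul_inv_cancel₀ hu, one_pow] at h3
  exact sub_eq_zero.mp (eq_zero_of_isK G TK hn h3)

/-- Existence: if the Kummer class of `x` has divisor divisible by `n`. -/
theorem exists_rel (hg : genusFF K Fm ≤ genusFF k F') (hnK : (n : K) ≠ 0) (hn : (n : k) ≠ 0)
    {x : Pic0 K F} {ψ : F'} (hx : IsK O ρ n x ψ)
    (hψ : ∀ w : Place k F', (n : ℤ) ∣ w.ord ψ) :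
    ∃ z : Pic0 K Fm, n • z = 0 ∧ Rel O ρ G.O G.ρ n x z := by
  obtain ⟨E, g, hg', h, hh0, hρ0, h1, h2⟩ := exists_kummer_lift G hg hnK hn hx.1 hψ
  have hg0 : g ≠ 0 := by
    rintro rfl
    exact hρ0 (map_zero G.ρ)
  refine ⟨Pic0.mk E, ?_, ψ, hx, ?_⟩
  · have h3 : n • Pic0.mk E = Pic0.mk (n • E) := rfl
    rw [h3, mk_eq_zero_iff']
    refine ⟨g, hg0, fun v => ?_⟩
    change (n • (E : Divisor K Fm)) v = _
    rw [Finsupp.smul_apply, nsmul_eq_mul, h1]
  · rw [h2]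
    exact (isK_of_rep hg' hρ0 h1).congr hh0

end Gauss

end Fermat.Agent.RibetE
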